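import Fermat.Agent.LC.Tame
import Fermat.Agent.Sel.LocC
import Fermat.Agent.CFT.NeedD

/-!
# The unipotent local condition away from `p`
-/

set_option autoImplicit false
set_option linter.unusedSectionVars false
set_option linter.style.haveILetI false

noncomputable section

namespace Fermat.Agent.LC

open Matrix Fermat.Agent.GalRep Fermat.Agent.Sel

local notation "Ω" => AlgebraicClosure ℚ

local notation "𝒢" => (AlgebraicClosure ℚ) ≃ₐ[ℚ] (AlgebraicClosure ℚ)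

theorem ine_le_dec (A : ValuationSubring Ω) : A.inertiaSubgroupIn ℚ ≤ A.decompositionSubgroup ℚ :=
  Subgroup.map_subtype_le _

variable {k : Type} [Field k]

section matrices

/-- normal form of nilpotent matrices -/
theorem exists_nil_form {N : M2 k} (hN : N * N = 0) (h0 : N ≠ 0) :
    ∃ P Pi : M2 k, P * Pi = 1 ∧ Pi * P = 1 ∧ N * P = P * !![0, 1; 0, 0] := by
  have e00 := congrFun (congrFun hN 0) 0
  have e01 := congrFun (congrFun hN 0) 1
  have e10 := congrFun (congrFun hN 1) 0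
  have e11 := congrFun (congrFun hN 1) 1
  simp only [Matrix.mul_apply, Fin.sum_univ_two, Matrix.zero_apply] at e00 e01 e10 e11
  by_cases hb : N 0 1 = 0
  · by_cases hc : N 1 0 = 0
    · exfalso
      apply h0
      rw [hb, zero_mul, add_zero] at e00
      rw [hc, zero_mul, zero_add] at e11
      ext i j
      fin_cases i <;> fin_cases j
      · exact mul_self_eq_zero.1 e00
      · exact hb
      · exact hc
      · exact mul_self_eq_zero.1 e11
    · refine ⟨!![N 0 0, 1; N 1 0, 0], !![0, (N 1 0)⁻¹; 1, - N 0 0 * (N 1 0)⁻¹], ?_, ?_, ?_⟩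
      · ext i j
        fin_cases i <;> fin_cases j <;> simp [Matrix.mul_apply, Fin.sum_univ_two, hc]
      · ext i j
        fin_cases i <;> fin_cases j <;> simp [Matrix.mul_apply, Fin.sum_univ_two, hc]
      · ext i j
        fin_cases i <;> fin_cases j <;> simp [Matrix.mul_apply, Fin.sum_univ_two, e00, e10]
  · refine ⟨!![N 0 1, 0; N 1 1, 1], !![(N 0 1)⁻¹, 0; - N 1 1 * (N 0 1)⁻¹, 1], ?_, ?_, ?_⟩
    · ext i j
      fin_cases i <;> fin_cases j <;> simp [Matrix.mul_apply, Fin.sum_univ_two, hb]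
    · ext i j
      fin_cases i <;> fin_cases j <;> simp [Matrix.mul_apply, Fin.sum_univ_two, hb]
    · ext i j
      fin_cases i <;> fin_cases j <;> simp [Matrix.mul_apply, Fin.sum_univ_two, e01, e11]

/-- the image of `Ad g - 1` for `g` unipotent -/
theorem exists_cob_of_unip {g gi Y : M2 k} (h2 : (2 : k) ≠ 0) (hgi : g * gi = 1)
    (hg : (g - 1) * (g - 1) = 0) (hg1 : g ≠ 1) (hY : Y.trace = 0) (hYg : (Y * g).trace = 0) :
    ∃ X : M2 k, X.trace = 0 ∧ g * X * gi - X = Y := by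
  obtain ⟨P, Pi, h1, h1', h3⟩ := exists_nil_form hg (sub_ne_zero.2 hg1)
  set E : M2 k := !![0, 1; 0, 0] with hE
  have hgi' : gi = 1 - (g - 1) := by
    have e1 : g * (1 - (g - 1)) = 1 := by
      have : g * (1 - (g - 1)) = 1 - (g - 1) * (g - 1) := by noncomm_ring
      rw [this, hg, sub_zero]
    have e2 : gi * g = 1 := by rw [mul_eq_one_comm]; exact hgi
    calc gi = gi * (g * (1 - (g - 1))) := by rw [e1, mul_one]
      _ = _ := by rw [← mul_assoc, e2, one_mul]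
  have hN : g - 1 = P * E * Pi := by rw [← h3, mul_assoc, h1, mul_one]
  set Y' : M2 k := Pi * Y * P with hY'
  have hYY : Y = P * Y' * Pi := by
    rw [hY']
    calc Y = (P * Pi) * Y * (P * Pi) := by rw [h1, one_mul, mul_one]
      _ = _ := by simp only [mul_assoc]
  have t1 : Y'.trace = 0 := by
    rw [hY', Matrix.trace_mul_comm, ← mul_assoc, h1, one_mul, hY]
  have t2 : (Y' * E).trace = 0 := by
    have e1 : (Y * (g - 1)).trace = 0 := by
      rw [mul_sub, Matrix.trace_sub, hYg, mul_one, hY, sub_zero]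
    rw [hN] at e1
    rw [hY']
    calc (Pi * Y * P * E).trace = (Pi * (Y * (P * E))).trace := by simp only [mul_assoc]
      _ = ((Y * (P * E)) * Pi).trace := Matrix.trace_mul_comm _ _
      _ = 0 := by rw [← e1]; simp only [mul_assoc]
  have t3 : Y' 1 0 = 0 := by
    rw [hE, Matrix.trace_fin_two] at t2
    simpa [Matrix.mul_apply, Fin.sum_univ_two] using t2
  have t4 : Y' 1 1 = - Y' 0 0 := by
    rw [Matrix.trace_fin_two] at t1
    linear_combination t1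
  let X' : M2 k := !![-(Y' 0 1 + Y' 0 0) / 2, 0; Y' 0 0, (Y' 0 1 + Y' 0 0) / 2]
  have hX' : E * X' - X' * E - E * X' * E = Y' := by
    ext i j
    fin_cases i <;> fin_cases j <;>
      simp [E, X', Matrix.mul_apply, Fin.sum_univ_two, t3, t4] <;> field_simp <;> ring
  refine ⟨P * X' * Pi, ?_, ?_⟩
  · rw [Matrix.trace_mul_comm, ← mul_assoc, h1', one_mul, Matrix.trace_fin_two]
    simp [X']
    ring
  · have hg' : g = 1 + P * E * Pi := by rw [← hN]; abel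
    rw [hgi', hN, hYY, ← hX', hg']
    have e1 : ∀ Z : M2 k, Pi * (P * Z) = Z := fun Z => by rw [← mul_assoc, h1', one_mul]
    simp only [mul_sub, sub_mul, mul_add, add_mul, mul_one, one_mul, mul_assoc, e1]
    abel

end matrices

section tools

variable (ρ : 𝒢 →* M2 k) {A : ValuationSubring Ω}

theorem B1_mem {V : Type} [AddCommGroup V] [Module k V] (r : 𝒢 →* Module.End k V)
    (D : Subgroup 𝒢) (X : V) : (fun σ : D => r (σ : 𝒢) X - X) ∈ B1 r D := ⟨X, rfl⟩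

theorem Z1_one {V : Type} [AddCommGroup V] [Module k V] {r : 𝒢 →* Module.End k V}
    {D : Subgroup 𝒢} {c : D → V} (hc : c ∈ Z1 r D) : c 1 = 0 := by
  have := hc.1 1 1
  rw [mul_one] at this
  change c 1 = c 1 + r 1 (c 1) at this
  rw [map_one, Module.End.one_apply] at this
  exact left_eq_add.1 this

theorem Z1_inv {V : Type} [AddCommGroup V] [Module k V] {r : 𝒢 →* Module.End k V}
    {D : Subgroup 𝒢} {c : D → V} (hc : c ∈ Z1 r D) (σ : D) (h : c σ = 0) : c σ⁻¹ = 0 := by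
  have := hc.1 σ⁻¹ σ
  rw [inv_mul_cancel, Z1_one hc, h, map_zero, add_zero] at this
  exact this.symm

theorem Z1_conj {V : Type} [AddCommGroup V] [Module k V] {r : 𝒢 →* Module.End k V}
    {D : Subgroup 𝒢} {c : D → V} (hc : c ∈ Z1 r D) (σ τ : D) (h : c τ = 0)
    (hr : r (τ : 𝒢) = 1) : c (σ⁻¹ * τ * σ) = 0 := by
  have h1 := hc.1 σ⁻¹ σ
  rw [inv_mul_cancel, Z1_one hc] at h1
  rw [hc.1, hc.1, h, map_zero, add_zero]
  have h2 : r ((σ⁻¹ * τ : D) : 𝒢) = r ((σ⁻¹ : D) : 𝒢) := by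
    change r (((σ⁻¹ : D) : 𝒢) * (τ : 𝒢)) = _
    rw [map_mul, hr, mul_one]
  rw [h2, ← h1]

theorem Z1_pow_zero {V : Type} [AddCommGroup V] [Module k V] {r : 𝒢 →* Module.End k V}
    {D : Subgroup 𝒢} {c : D → V} (hc : c ∈ Z1 r D) (σ : D) (h : c σ = 0) (n : ℕ) :
    c (σ ^ n) = 0 := by
  induction n with
  | zero => rw [pow_zero, Z1_one hc]
  | succ n ih => rw [pow_succ, hc.1, ih, h, map_zero, add_zero]

theorem Z1_pow {V : Type} [AddCommGroup V] [Module k V] {r : 𝒢 →* Module.End k V}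
    {D : Subgroup 𝒢} {c : D → V} (hc : c ∈ Z1 r D) (σ : D) (h : r (σ : 𝒢) = 1) (n : ℕ) :
    c (σ ^ n) = n • c σ := by
  induction n with
  | zero => rw [pow_zero, Z1_one hc, zero_smul]
  | succ n ih =>
    have h2 : r ((σ ^ n : D) : 𝒢) = 1 := by
      change r ((σ : 𝒢) ^ n) = 1
      rw [map_pow, h, one_pow]
    rw [pow_succ, hc.1, ih, h2, Module.End.one_apply, succ_nsmul]

/-- unipotent matrices have order dividing `p` -/
theorem unip_pow {p : ℕ} [hp : Fact p.Prime] [CharP k p] {g : M2 k}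
    (hg : (g - 1) * (g - 1) = 0) : g ^ p = 1 := by
  have h1 : ∀ n : ℕ, g ^ n = 1 + (n : M2 k) * (g - 1) := by
    intro n
    induction n with
    | zero => simp
    | succ n ih =>
      rw [pow_succ, ih, Nat.cast_succ]
      have : (1 + (n : M2 k) * (g - 1)) * g = 1 + ((n : M2 k) + 1) * (g - 1) +
          (n : M2 k) * ((g - 1) * (g - 1)) := by noncomm_ring
      rw [this, hg, mul_zero, add_zero]
  rw [h1, CharP.cast_eq_zero, zero_mul, add_zero]

end tools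

variable (ρ : 𝒢 →* M2 k)

/-- the unipotent local condition -/
def unipL (A : ValuationSubring Ω) : Submodule k (A.decompositionSubgroup ℚ → sl k) where
  carrier := {c | c ∈ Z1 (adR ρ) (A.decompositionSubgroup ℚ) ∧
    ∀ σ : A.decompositionSubgroup ℚ, (σ : 𝒢) ∈ A.inertiaSubgroupIn ℚ →
      ((c σ : M2 k) * ρ (σ : 𝒢)).trace = 0}
  zero_mem' := ⟨Submodule.zero_mem _, fun σ _ => by
    change ((0 : M2 k) * _).trace = 0
    rw [zero_mul, Matrix.trace_zero]⟩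
  add_mem' := fun {c d} hc hd => ⟨Submodule.add_mem _ hc.1 hd.1, fun σ hσ => by
    change (((c σ : M2 k) + (d σ : M2 k)) * _).trace = 0
    rw [add_mul, Matrix.trace_add, hc.2 σ hσ, hd.2 σ hσ, add_zero]⟩
  smul_mem' := fun t c hc => ⟨Submodule.smul_mem _ t hc.1, fun σ hσ => by
    change ((t • (c σ : M2 k)) * _).trace = 0
    rw [smul_mul_assoc, Matrix.trace_smul, hc.2 σ hσ, smul_zero]⟩

theorem unipL_le_Z1 (A : ValuationSubring Ω) : unipL ρ A ≤ Z1 (adR ρ) _ := fun _ hc => hc.1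

theorem B1_le_unipL (hlc : ∃ F : IntermediateField ℚ Ω, FiniteDimensional ℚ F ∧
      ∀ σ : 𝒢, (∀ x ∈ F, σ x = x) → ρ σ = 1) (A : ValuationSubring Ω) :
    B1 (adR ρ) _ ≤ unipL ρ A := by
  intro c hc
  refine ⟨B1_le_Z1 ρ hlc _ hc, fun σ _ => ?_⟩
  obtain ⟨X, rfl⟩ := hc
  change ((ρ (σ : 𝒢) * (X : M2 k) * ρ (σ : 𝒢)⁻¹ - X) * ρ (σ : 𝒢)).trace = 0
  rw [sub_mul, mul_assoc, rho_inv_mul (ρ := ρ), mul_one, Matrix.trace_sub,
    Matrix.trace_mul_comm, sub_self]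

variable {ρ}

set_option maxHeartbeats 1000000 in
theorem unipL_le {p : ℕ} [hp : Fact p.Prime] [CharP k p] (h2 : (2 : k) ≠ 0)
    (hlc : ∃ F : IntermediateField ℚ Ω, FiniteDimensional ℚ F ∧
      ∀ σ : 𝒢, (∀ x ∈ F, σ x = x) → ρ σ = 1) {v : ℕ} [hv : Fact v.Prime] (hpv : p ≠ v)
    {A : ValuationSubring Ω} (hA : A.LiesOverPrime v)
    (hun : ∀ σ ∈ A.inertiaSubgroupIn ℚ, (ρ σ - 1) * (ρ σ - 1) = 0)
    (hram : ∃ σ ∈ A.inertiaSubgroupIn ℚ, ρ σ ≠ 1) :
    unipL ρ A ≤ CFT.urZ (adR ρ) A ⊔ B1 (adR ρ) _ := by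
  rintro c ⟨hc, hct⟩
  let K : Subgroup 𝒢 :=
    { carrier := {σ | ∃ h : σ ∈ A.inertiaSubgroupIn ℚ, ρ σ = 1 ∧ c ⟨σ, ine_le_dec A h⟩ = 0}
      mul_mem' := by
        rintro σ τ ⟨h1, h3, h4⟩ ⟨h1', h3', h4'⟩
        refine ⟨mul_mem h1 h1', by rw [map_mul, h3, h3', one_mul], ?_⟩
        have := hc.1 ⟨σ, ine_le_dec A h1⟩ ⟨τ, ine_le_dec A h1'⟩
        rw [h4, h4', map_zero, add_zero] at this
        exact this
      one_mem' := ⟨one_mem _, map_one ρ, Z1_one hc⟩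
      inv_mem' := by
        rintro σ ⟨h1, h3, h4⟩
        refine ⟨inv_mem h1, ?_, Z1_inv hc _ h4⟩
        have := rho_mul_inv (ρ := ρ) σ
        rwa [h3, one_mul] at this }
  have hKI : K ≤ A.inertiaSubgroupIn ℚ := fun σ hσ => hσ.1
  have hKn : ∀ σ ∈ A.inertiaSubgroupIn ℚ, ∀ τ ∈ K, σ⁻¹ * τ * σ ∈ K := by
    rintro σ hσ τ ⟨h1, h3, h4⟩
    refine ⟨mul_mem (mul_mem (inv_mem hσ) h1) hσ, ?_, ?_⟩
    · rw [map_mul, map_mul, h3, mul_one, rho_inv_mul]
    · exact Z1_conj hc ⟨σ, ine_le_dec A hσ⟩ ⟨τ, ine_le_dec A h1⟩ h4 (adR_one' ρ h3)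
  have hop : ∃ L : IntermediateField ℚ Ω, FiniteDimensional ℚ L ∧
      ∀ σ ∈ A.inertiaSubgroupIn ℚ, (∀ x ∈ L, σ x = x) → σ ∈ K := by
    obtain ⟨F, hF, h3⟩ := hlc
    obtain ⟨F', hF', h4⟩ := hc.2
    exact ⟨F ⊔ F', inferInstance, fun σ hσ hx => ⟨hσ,
      h3 σ fun x hx' => hx x ((le_sup_left : F ≤ F ⊔ F') hx'),
      h4 _ fun x hx' => hx x ((le_sup_right : F' ≤ F ⊔ F') hx')⟩⟩
  have hpp : ∀ σ ∈ A.inertiaSubgroupIn ℚ, ∃ j : ℕ, σ ^ p ^ j ∈ K := by
    intro σ hσ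
    refine ⟨2, pow_mem hσ _, ?_, ?_⟩
    · rw [pow_two, pow_mul, map_pow, map_pow, unip_pow (p := p) (hun σ hσ), one_pow]
    · have e1 : ρ (σ ^ p) = 1 := by rw [map_pow, unip_pow (p := p) (hun σ hσ)]
      have e2 := Z1_pow hc ⟨σ ^ p, ine_le_dec A (pow_mem hσ p)⟩ (adR_one' ρ e1) p
      have e3 : (p : ℕ) • c ⟨σ ^ p, ine_le_dec A (pow_mem hσ p)⟩ = 0 := by
        rw [← Nat.cast_smul_eq_nsmul k, CharP.cast_eq_zero, zero_smul]
      rw [e3] at e2
      rw [← e2]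
      congr 1
      apply Subtype.ext
      change σ ^ p ^ 2 = (σ ^ p) ^ p
      rw [pow_two, pow_mul]
  obtain ⟨σ₀, hσ₀, hgen⟩ := exists_genK hKI hKn hop hp.out hpv hpp hA
  have hne : ρ σ₀ ≠ 1 := by
    intro h3
    obtain ⟨σ, hσ, h4⟩ := hram
    obtain ⟨n, -, h5, -⟩ := hgen σ hσ
    apply h4
    have : σ = σ * (σ₀ ^ n)⁻¹ * σ₀ ^ n := by group
    rw [this, map_mul, h5, map_pow, h3, one_pow, one_mul]
  have ht := hct ⟨σ₀, ine_le_dec A hσ₀⟩ hσ₀
  obtain ⟨X, hX, hX'⟩ := exists_cob_of_unip h2 (rho_mul_inv (ρ := ρ) σ₀) (hun σ₀ hσ₀) hne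
    (sl_trace (c ⟨σ₀, ine_le_dec A hσ₀⟩)) ht
  set X₀ : sl k := ⟨X, mem_sl.2 hX⟩ with hX₀
  set d : A.decompositionSubgroup ℚ → sl k := fun σ => adR ρ (σ : 𝒢) X₀ - X₀ with hd
  have hdB : d ∈ B1 (adR ρ) (A.decompositionSubgroup ℚ) := B1_mem _ _ _
  have hdZ := B1_le_Z1 ρ hlc _ hdB
  have hcd : c - d ∈ Z1 (adR ρ) (A.decompositionSubgroup ℚ) := Submodule.sub_mem _ hc hdZ
  have h0 : (c - d) ⟨σ₀, ine_le_dec A hσ₀⟩ = 0 := by
    apply Subtype.ext
    change ((c ⟨σ₀, ine_le_dec A hσ₀⟩ : M2 k) - (ρ σ₀ * X * ρ σ₀⁻¹ - X)) = 0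
    rw [hX', sub_self]
  have hur : c - d ∈ CFT.urZ (adR ρ) A := by
    refine ⟨hcd, fun σ hσ => ?_⟩
    obtain ⟨n, h3, h4, h5⟩ := hgen σ hσ
    set κ : A.decompositionSubgroup ℚ := ⟨(σ : 𝒢) * (σ₀ ^ n)⁻¹, ine_le_dec A h3⟩ with hκ
    have e1 : σ = κ * ⟨σ₀, ine_le_dec A hσ₀⟩ ^ n := by
      apply Subtype.ext
      change (σ : 𝒢) = (σ : 𝒢) * (σ₀ ^ n)⁻¹ * σ₀ ^ n
      group
    have e2 : (c - d) κ = 0 := by
      rw [Pi.sub_apply]
      change c κ - (adR ρ (κ : 𝒢) X₀ - X₀) = 0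
      rw [h5, adR_one' ρ h4, Module.End.one_apply, sub_self, sub_zero]
    rw [e1, hcd.1, e2, Z1_pow_zero hcd _ h0, map_zero, add_zero]
  rw [show c = (c - d) + d by abel]
  exact Submodule.add_mem_sup hur hdB

theorem sup_res {E : Type} [AddCommGroup E] [Module k E] {p : ℕ} [Fact p.Prime]
    [Algebra (ZMod p) k] [Module (ZMod p) E] [IsScalarTower (ZMod p) k E] (U W : Submodule k E) :
    (U ⊔ W).restrictScalars (ZMod p) = U.restrictScalars (ZMod p) ⊔ W.restrictScalars (ZMod p) := by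
  apply le_antisymm
  · intro x hx
    obtain ⟨u, hu, w, hw, rfl⟩ := Submodule.mem_sup.1 (hx : x ∈ U ⊔ W)
    exact Submodule.add_mem_sup (S := U.restrictScalars (ZMod p)) hu hw
  · exact sup_le (fun x hx => (le_sup_left : U ≤ U ⊔ W) hx)
      (fun x hx => (le_sup_right : W ≤ U ⊔ W) hx)

theorem finrank_urB1 {p : ℕ} [hp : Fact p.Prime] [Finite k] [Algebra (ZMod p) k]
    (hlc : ∃ F : IntermediateField ℚ Ω, FiniteDimensional ℚ F ∧
      ∀ σ : 𝒢, (∀ x ∈ F, σ x = x) → ρ σ = 1) {v : ℕ} (hv : v.Prime)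
    {A : ValuationSubring Ω} (hA : A.LiesOverPrime v) :
    FiniteDimensional k ↥(CFT.urZ (adR ρ) A ⊔ B1 (adR ρ) (A.decompositionSubgroup ℚ)) ∧
    Module.finrank k ↥(CFT.urZ (adR ρ) A ⊔ B1 (adR ρ) (A.decompositionSubgroup ℚ)) = 3 := by
  haveI : FiniteDimensional k (sl k) := by
    apply FiniteDimensional.of_finrank_pos
    rw [finrank_sl]
    norm_num
  haveI : Module.Finite (ZMod p) k := Module.Finite.of_finite
  haveI : FiniteDimensional (ZMod p) (sl k) := Module.Finite.trans k (sl k)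
  obtain ⟨F, hF, h1⟩ := hlc
  obtain ⟨h3, h4⟩ := CFT.urDim p (sl k) (resS (p := p) (adR ρ)) ⟨F, hF, fun σ hσ => by
    refine LinearMap.ext fun X => ?_
    change adR ρ σ X = X
    rw [adR_one' ρ (h1 σ hσ)]
    rfl⟩ v A hv hA
  set U := CFT.urZ (adR ρ) A ⊔ B1 (adR ρ) (A.decompositionSubgroup ℚ) with hU
  have e1 : U.restrictScalars (ZMod p) = CFT.urZ (resS (p := p) (adR ρ)) A ⊔
      B1 (resS (p := p) (adR ρ)) (A.decompositionSubgroup ℚ) := by
    rw [hU, sup_res]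
    congr 1
  rw [← e1, finrank_res (p := p) U] at h4
  have hd : 0 < Module.finrank (ZMod p) k := Module.finrank_pos
  have e4 : Module.finrank (ZMod p) (sl k) = Module.finrank (ZMod p) k * 3 := by
    rw [← finrank_sl (k := k)]
    exact (Module.finrank_mul_finrank (ZMod p) k (sl k)).symm
  rw [e4] at h4
  have h5 := Nat.eq_of_mul_eq_mul_left hd h4
  exact ⟨FiniteDimensional.of_finrank_pos (by rw [h5]; norm_num), h5⟩

/-- **the bound for the unipotent condition** -/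
theorem finrank_unipL_le {p : ℕ} [hp : Fact p.Prime] [CharP k p] [Finite k] [Algebra (ZMod p) k]
    (h2 : (2 : k) ≠ 0)
    (hlc : ∃ F : IntermediateField ℚ Ω, FiniteDimensional ℚ F ∧
      ∀ σ : 𝒢, (∀ x ∈ F, σ x = x) → ρ σ = 1) {v : ℕ} [hv : Fact v.Prime] (hpv : p ≠ v)
    {A : ValuationSubring Ω} (hA : A.LiesOverPrime v)
    (hun : ∀ σ ∈ A.inertiaSubgroupIn ℚ, (ρ σ - 1) * (ρ σ - 1) = 0)
    (hram : ∃ σ ∈ A.inertiaSubgroupIn ℚ, ρ σ ≠ 1) :
    FiniteDimensional k (unipL ρ A) ∧ Module.finrank k (unipL ρ A) ≤ 3 := by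
  obtain ⟨h3, h4⟩ := finrank_urB1 (p := p) hlc hv.out hA
  have h5 := unipL_le (p := p) h2 hlc hpv hA hun hram
  haveI := h3
  exact ⟨Submodule.finiteDimensional_of_le h5, (Submodule.finrank_mono h5).trans h4.le⟩

end Fermat.Agent.LC
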