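import Fermat.Agent.LC.Mem

/-!
# The strict ordinary local condition
-/

set_option autoImplicit false
set_option linter.unusedSectionVars false
set_option linter.style.haveILetI false

noncomputable section

namespace Fermat.Agent.LC

open Matrix IsLocalRing Fermat.Agent.GalRep Fermat.Agent.Sel Fermat.Agent.TWG Fermat.Agent.Places

local notation "Ω" => AlgebraicClosure ℚ

local notation "𝒢" => (AlgebraicClosure ℚ) ≃ₐ[ℚ] (AlgebraicClosure ℚ)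

section cyc

variable {p : ℕ} [hp : Fact p.Prime]

theorem isOpen_ker_cyc : IsOpen (((cyc p).toHomUnits.ker : Subgroup 𝒢) : Set 𝒢) := by
  obtain ⟨L, hL, h1⟩ := exists_level_cyc p
  haveI := hL
  refine Subgroup.isOpen_mono (H₁ := L.fixingSubgroup) ?_ L.fixingSubgroup_isOpen
  intro σ hσ
  rw [IntermediateField.mem_fixingSubgroup_iff] at hσ
  rw [MonoidHom.mem_ker]
  exact Units.ext (h1 σ hσ)

/-- the cyclotomic character is ramified at `p` -/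
theorem exists_cyc_ne_one (hp2 : p ≠ 2) {A : ValuationSubring Ω} (hA : A.LiesOverPrime p) :
    ∃ σ ∈ A.inertiaSubgroupIn ℚ, cyc p σ ≠ 1 := by
  by_contra hcon
  push Not at hcon
  have h1 : (cyc p).toHomUnits.ker = ⊤ := by
    refine eq_top_of_inertia_le _ isOpen_ker_cyc fun q hq B hB τ hτ => ?_
    rw [MonoidHom.mem_ker]
    apply Units.ext
    change cyc p τ = 1
    by_cases hqp : q = p
    · subst hqp
      obtain ⟨g, hg⟩ := exists_smul_eq_of_liesOverPrime hq A B hA hB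
      rw [← hg] at hτ
      have h2 := hcon _ (conj_inertia hτ)
      rw [map_mul, map_mul, mul_comm, ← mul_assoc, ← map_mul, mul_inv_cancel, map_one,
        one_mul] at h2
      exact h2
    · exact cyc_inertia ((Nat.coprime_primes hq hp.out).2 hqp) hB hτ
  have h2 : complexConjugation ∈ (cyc p).toHomUnits.ker := by rw [h1]; trivial
  rw [MonoidHom.mem_ker] at h2
  have h3 : cyc p complexConjugation = 1 := congrArg Units.val h2
  rw [cyc_complexConjugation] at h3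
  have h4 : ((2 : ℕ) : ZMod p) = 0 := by
    push_cast
    linear_combination -h3
  rw [ZMod.natCast_eq_zero_iff, Nat.prime_dvd_prime_iff_eq hp.out Nat.prime_two] at h4
  exact hp2 h4

end cyc

section mat

variable {k : Type} [Field k]

theorem mul2 (X Y : M2 k) (i j : Fin 2) : (X * Y) i j = X i 0 * Y 0 j + X i 1 * Y 1 j := by
  rw [Matrix.mul_apply, Fin.sum_univ_two]

theorem tri_change {T' Y T : M2 k} (h1 : T 1 0 = 0) (h2 : T' 1 0 = 0) (h10 : Y 1 0 = 0)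
    (h00 : Y 0 0 = 0) (h11 : Y 1 1 = 0) : (T' * Y * T) 1 0 = 0 ∧ (T' * Y * T) 0 0 = 0 := by
  constructor
  · rw [mul2, mul2 T' Y, mul2 T' Y, h1, h2, h10, h00, h11]
    ring
  · rw [mul2, mul2 T' Y, mul2 T' Y, h1, h10, h00]
    ring

theorem tri_conj {M Z Mi : M2 k} (h1 : M 1 0 = 0) (h2 : Mi 1 0 = 0) (h10 : Z 1 0 = 0) :
    (M * Z * Mi) 1 0 = 0 ∧ (M * Z * Mi) 0 0 = M 0 0 * Z 0 0 * Mi 0 0 := by
  constructor
  · rw [mul2, mul2 M Z, mul2 M Z, h1, h2, h10]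
    ring
  · rw [mul2, mul2 M Z, mul2 M Z, h2, h10]
    ring

theorem tri_act {M Z Mi : M2 k} (h00 : Z 0 0 = 0) (h10 : Z 1 0 = 0)
    (h11 : Z 1 1 = 0) : (M * Z * Mi) 0 1 = M 0 0 * Z 0 1 * Mi 1 1 := by
  rw [mul2, mul2 M Z, mul2 M Z, h00, h10, h11]
  ring

end mat

variable {k : Type} [Field k] (ρ : 𝒢 →* M2 k) (p : ℕ) [hp : Fact p.Prime] [Algebra (ZMod p) k]

/-- a basis adapted to the ordinary line -/
structure OrdB (A : ValuationSubring Ω) (Q Qi : M2 k) : Prop where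
  inv : Q * Qi = 1
  low : ∀ σ ∈ A.decompositionSubgroup ℚ, (Qi * ρ σ * Q) 1 0 = 0
  ine : ∀ σ ∈ A.inertiaSubgroupIn ℚ, (Qi * ρ σ * Q) 1 1 = 1
  diag : ∀ σ ∈ A.decompositionSubgroup ℚ,
    (Qi * ρ σ * Q) 0 0 = algebraMap (ZMod p) k (cyc p σ) * (Qi * ρ σ * Q) 1 1

/-- the residual condition -/
def RO : Prop := ∀ A : ValuationSubring Ω, A.LiesOverPrime p → ∃ Q Qi, OrdB ρ p A Q Qi

/-- strictly upper triangular in an adapted basis -/
structure Up (Q Qi Y : M2 k) : Prop where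
  h10 : (Qi * Y * Q) 1 0 = 0
  h00 : (Qi * Y * Q) 0 0 = 0

variable {ρ p}

theorem Up.add {Q Qi Y Z : M2 k} (hY : Up Q Qi Y) (hZ : Up Q Qi Z) : Up Q Qi (Y + Z) :=
  ⟨by rw [mul_add, add_mul, Matrix.add_apply, hY.h10, hZ.h10, add_zero],
    by rw [mul_add, add_mul, Matrix.add_apply, hY.h00, hZ.h00, add_zero]⟩

theorem Up.smul {Q Qi Y : M2 k} (hY : Up Q Qi Y) (t : k) : Up Q Qi (t • Y) :=
  ⟨by rw [mul_smul_comm, smul_mul_assoc, Matrix.smul_apply, hY.h10, smul_zero],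
    by rw [mul_smul_comm, smul_mul_assoc, Matrix.smul_apply, hY.h00, smul_zero]⟩

theorem Up.zero (Q Qi : M2 k) : Up Q Qi (0 : M2 k) := by
  constructor <;> simp

theorem OrdB.inv' {A : ValuationSubring Ω} {Q Qi : M2 k} (h : OrdB ρ p A Q Qi) : Qi * Q = 1 := by
  rw [mul_eq_one_comm]; exact h.inv

/-- the line is unique -/
theorem OrdB.uniq (hp2 : p ≠ 2) {A : ValuationSubring Ω} (hA : A.LiesOverPrime p)
    {Q Qi Q' Qi' : M2 k} (h : OrdB ρ p A Q Qi) (h' : OrdB ρ p A Q' Qi') : (Qi * Q') 1 0 = 0 := by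
  obtain ⟨σ, hσ, hne⟩ := exists_cyc_ne_one hp2 hA
  have hσD := ine_le_dec A hσ
  set M := Qi * ρ σ * Q with hM
  set M' := Qi' * ρ σ * Q' with hM'
  have e1 : M * (Qi * Q') = (Qi * Q') * M' := by
    rw [hM, hM']
    calc Qi * ρ σ * Q * (Qi * Q') = Qi * ρ σ * (Q * Qi) * Q' := by simp only [mul_assoc]
      _ = Qi * ρ σ * Q' := by rw [h.inv, mul_one]
      _ = Qi * (Q' * Qi') * ρ σ * Q' := by rw [h'.inv, mul_one]
      _ = _ := by simp only [mul_assoc]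
  have e2 := congrFun (congrFun e1 1) 0
  have f1 : M 1 0 = 0 := h.low σ hσD
  have f2 : M 1 1 = 1 := h.ine σ hσ
  have f3 : M' 1 0 = 0 := h'.low σ hσD
  have f4 : M' 0 0 = algebraMap (ZMod p) k (cyc p σ) * M' 1 1 := h'.diag σ hσD
  have f5 : M' 1 1 = 1 := h'.ine σ hσ
  rw [mul2 M, mul2 (Qi * Q'), f1, f2, f3, f4, f5, zero_mul, zero_add, one_mul, mul_zero,
    add_zero, mul_one] at e2
  have e3 : (Qi * Q') 1 0 * (algebraMap (ZMod p) k (cyc p σ) - 1) = 0 := by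
    rw [mul_sub, mul_one, ← e2, sub_self]
  refine (mul_eq_zero.1 e3).resolve_right fun h0 => hne ?_
  apply (algebraMap (ZMod p) k).injective
  rw [map_one]
  exact sub_eq_zero.1 h0

theorem Up.change {Q Qi Q' Qi' Y : M2 k} (hY : Up Q Qi Y) (ht : Y.trace = 0) (h : Q * Qi = 1)
    (h1 : (Qi * Q') 1 0 = 0) (h2 : (Qi' * Q) 1 0 = 0) : Up Q' Qi' Y := by
  have hh : Qi * Q = 1 := by rw [mul_eq_one_comm]; exact h
  have e1 : Qi' * Y * Q' = (Qi' * Q) * (Qi * Y * Q) * (Qi * Q') := by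
    calc Qi' * Y * Q' = Qi' * (Q * Qi) * Y * (Q * Qi) * Q' := by rw [h, mul_one, mul_one]
      _ = _ := by simp only [mul_assoc]
  have h11 : (Qi * Y * Q) 1 1 = 0 := by
    have e2 : (Qi * Y * Q).trace = 0 := by
      rw [Matrix.trace_mul_comm, ← mul_assoc, h, one_mul, ht]
    rw [Matrix.trace_fin_two, hY.h00, zero_add] at e2
    exact e2
  obtain ⟨f1, f2⟩ := tri_change (T' := Qi' * Q) (T := Qi * Q') h1 h2 hY.h10 hY.h00 h11
  exact ⟨by rw [e1]; exact f1, by rw [e1]; exact f2⟩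

variable (ρ p)

/-- the strict ordinary condition -/
def ordL (A : ValuationSubring Ω) : Submodule k (A.decompositionSubgroup ℚ → sl k) where
  carrier := {c | c ∈ Z1 (adR ρ) (A.decompositionSubgroup ℚ) ∧ ∀ Q Qi, OrdB ρ p A Q Qi →
    ∃ X : sl k, ∀ σ : A.decompositionSubgroup ℚ,
      Up Q Qi ((c σ : M2 k) - (ρ (σ : 𝒢) * X * ρ (σ : 𝒢)⁻¹ - X))}
  zero_mem' := ⟨Submodule.zero_mem _, fun Q Qi _ => ⟨0, fun σ => by
    have : ((0 : A.decompositionSubgroup ℚ → sl k) σ : M2 k) -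
        (ρ (σ : 𝒢) * ((0 : sl k) : M2 k) * ρ (σ : 𝒢)⁻¹ - ((0 : sl k) : M2 k)) = 0 := by simp
    rw [this]
    exact Up.zero Q Qi⟩⟩
  add_mem' := fun {c d} hc hd => ⟨Submodule.add_mem _ hc.1 hd.1, fun Q Qi h => by
    obtain ⟨X, hX⟩ := hc.2 Q Qi h
    obtain ⟨X', hX'⟩ := hd.2 Q Qi h
    refine ⟨X + X', fun σ => ?_⟩
    have e := (hX σ).add (hX' σ)
    have : ((c + d) σ : M2 k) - (ρ (σ : 𝒢) * ((X + X' : sl k) : M2 k) * ρ (σ : 𝒢)⁻¹ -
        ((X + X' : sl k) : M2 k)) = ((c σ : M2 k) - (ρ (σ : 𝒢) * X * ρ (σ : 𝒢)⁻¹ - X)) +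
        ((d σ : M2 k) - (ρ (σ : 𝒢) * X' * ρ (σ : 𝒢)⁻¹ - X')) := by
      change (c σ : M2 k) + (d σ : M2 k) - (ρ (σ : 𝒢) * ((X : M2 k) + X') * ρ (σ : 𝒢)⁻¹ -
        ((X : M2 k) + X')) = _
      rw [mul_add, add_mul]
      abel
    rw [this]
    exact e⟩
  smul_mem' := fun t c hc => ⟨Submodule.smul_mem _ t hc.1, fun Q Qi h => by
    obtain ⟨X, hX⟩ := hc.2 Q Qi h
    refine ⟨t • X, fun σ => ?_⟩
    have e := (hX σ).smul t
    have : ((t • c) σ : M2 k) - (ρ (σ : 𝒢) * ((t • X : sl k) : M2 k) * ρ (σ : 𝒢)⁻¹ -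
        ((t • X : sl k) : M2 k)) = t • ((c σ : M2 k) - (ρ (σ : 𝒢) * X * ρ (σ : 𝒢)⁻¹ - X)) := by
      change t • (c σ : M2 k) - (ρ (σ : 𝒢) * (t • (X : M2 k)) * ρ (σ : 𝒢)⁻¹ -
        t • (X : M2 k)) = _
      rw [mul_smul_comm, smul_mul_assoc, smul_sub, smul_sub]
    rw [this]
    exact e⟩

theorem ordL_le_Z1 (A : ValuationSubring Ω) : ordL ρ p A ≤ Z1 (adR ρ) _ := fun _ hc => hc.1

theorem B1_le_ordL (hlc : ∃ F : IntermediateField ℚ Ω, FiniteDimensional ℚ F ∧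
      ∀ σ : 𝒢, (∀ x ∈ F, σ x = x) → ρ σ = 1) (A : ValuationSubring Ω) :
    B1 (adR ρ) _ ≤ ordL ρ p A := by
  intro c hc
  refine ⟨B1_le_Z1 ρ hlc _ hc, fun Q Qi _ => ?_⟩
  obtain ⟨X, rfl⟩ := hc
  refine ⟨X, fun σ => ?_⟩
  have : (((LinearMap.pi fun σ : A.decompositionSubgroup ℚ =>
      (adR ρ σ - 1 : Module.End k (sl k))) X) σ : M2 k) -
      (ρ (σ : 𝒢) * X * ρ (σ : 𝒢)⁻¹ - X) = 0 := sub_self _
  rw [this]
  exact Up.zero Q Qi

/-- the cyclotomic character on `k` -/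
def cycR (k : Type) [Field k] [Algebra (ZMod p) k] : 𝒢 →* Module.End k k where
  toFun σ := (algebraMap (ZMod p) k (cyc p σ)) • (1 : Module.End k k)
  map_one' := by rw [map_one, map_one, one_smul]
  map_mul' σ τ := by
    rw [map_mul, map_mul, smul_mul_assoc, mul_smul_comm, smul_smul, one_mul]

theorem cycR_apply (σ : 𝒢) (x : k) : cycR p k σ x = algebraMap (ZMod p) k (cyc p σ) * x := rfl

variable {ρ p}

section bound

variable {A : ValuationSubring Ω} {Q Qi : M2 k}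

theorem OrdB.conj (h : OrdB ρ p A Q Qi) {σ : 𝒢} (hσ : σ ∈ A.decompositionSubgroup ℚ) :
    (Qi * ρ σ * Q) * (Qi * ρ σ⁻¹ * Q) = 1 := by
  calc (Qi * ρ σ * Q) * (Qi * ρ σ⁻¹ * Q) = Qi * ρ σ * (Q * Qi) * ρ σ⁻¹ * Q := by
        simp only [mul_assoc]
    _ = Qi * (ρ σ * ρ σ⁻¹) * Q := by rw [h.inv, mul_one]; simp only [mul_assoc]
    _ = 1 := by rw [rho_mul_inv, mul_one, h.inv']

/-- the action of the decomposition group on upper triangular matrices -/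
theorem OrdB.up_of_upper (h : OrdB ρ p A Q Qi) {σ : 𝒢} (hσ : σ ∈ A.decompositionSubgroup ℚ)
    {Z : M2 k} (h10 : (Qi * Z * Q) 1 0 = 0) : Up Q Qi (ρ σ * Z * ρ σ⁻¹ - Z) := by
  set M := Qi * ρ σ * Q with hM
  set Mi := Qi * ρ σ⁻¹ * Q with hMi
  set Z' := Qi * Z * Q with hZ'
  have e0 : Qi * (ρ σ * Z * ρ σ⁻¹ - Z) * Q = M * Z' * Mi - Z' := by
    rw [mul_sub, sub_mul]
    congr 1
    rw [hM, hMi, hZ']
    calc Qi * (ρ σ * Z * ρ σ⁻¹) * Q = Qi * ρ σ * 1 * Z * 1 * ρ σ⁻¹ * Q := by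
          simp only [mul_one, mul_assoc]
      _ = Qi * ρ σ * (Q * Qi) * Z * (Q * Qi) * ρ σ⁻¹ * Q := by rw [h.inv]
      _ = _ := by simp only [mul_assoc]
  have e1 : M 1 0 = 0 := h.low σ hσ
  have e2 : Mi 1 0 = 0 := h.low σ⁻¹ (inv_mem hσ)
  have e3 := congrFun (congrFun (h.conj hσ) 0) 0
  rw [← hM, ← hMi, mul2 M, e2, mul_zero, add_zero, Matrix.one_apply_eq] at e3
  obtain ⟨f1, f2⟩ := tri_conj (Z := Z') e1 e2 h10
  constructor
  · rw [e0, Matrix.sub_apply, f1, h10, sub_zero]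
  · rw [e0, Matrix.sub_apply, f2]
    linear_combination (Z' 0 0) * e3

/-- the action on the nilpotent line -/
theorem OrdB.act_n (h : OrdB ρ p A Q Qi) {σ : 𝒢} (hσ : σ ∈ A.decompositionSubgroup ℚ) {Z : M2 k}
    (hZ : Up Q Qi Z) (ht : Z.trace = 0) :
    (Qi * (ρ σ * Z * ρ σ⁻¹) * Q) 0 1 = algebraMap (ZMod p) k (cyc p σ) * (Qi * Z * Q) 0 1 := by
  set M := Qi * ρ σ * Q with hM
  set Mi := Qi * ρ σ⁻¹ * Q with hMi
  set Z' := Qi * Z * Q with hZ'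
  have e0 : Qi * (ρ σ * Z * ρ σ⁻¹) * Q = M * Z' * Mi := by
    rw [hM, hMi, hZ']
    calc Qi * (ρ σ * Z * ρ σ⁻¹) * Q = Qi * ρ σ * 1 * Z * 1 * ρ σ⁻¹ * Q := by
          simp only [mul_one, mul_assoc]
      _ = Qi * ρ σ * (Q * Qi) * Z * (Q * Qi) * ρ σ⁻¹ * Q := by rw [h.inv]
      _ = _ := by simp only [mul_assoc]
  have e1 : M 1 0 = 0 := h.low σ hσ
  have e2 : Mi 1 0 = 0 := h.low σ⁻¹ (inv_mem hσ)
  have e3 := congrFun (congrFun (h.conj hσ) 1) 1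
  rw [← hM, ← hMi, mul2 M, e1, zero_mul, zero_add, Matrix.one_apply_eq] at e3
  have e4 : M 0 0 = algebraMap (ZMod p) k (cyc p σ) * M 1 1 := h.diag σ hσ
  have h11 : Z' 1 1 = 0 := by
    have e2 : (Qi * Z * Q).trace = 0 := by
      rw [Matrix.trace_mul_comm, ← mul_assoc, h.inv, one_mul, ht]
    rw [Matrix.trace_fin_two, hZ.h00, zero_add] at e2
    exact e2
  have h00 : Z' 0 0 = 0 := hZ.h00
  have h10 : Z' 1 0 = 0 := hZ.h10
  rw [e0, tri_act h00 h10 h11, e4]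
  linear_combination (algebraMap (ZMod p) k (cyc p σ) * Z' 0 1) * e3

theorem eq_of_up (hQ : Q * Qi = 1) {Y : M2 k} (hY : Up Q Qi Y) (ht : Y.trace = 0) :
    Y = (Qi * Y * Q) 0 1 • (Q * !![0, 1; 0, 0] * Qi) := by
  have h11 : (Qi * Y * Q) 1 1 = 0 := by
    have e2 : (Qi * Y * Q).trace = 0 := by
      rw [Matrix.trace_mul_comm, ← mul_assoc, hQ, one_mul, ht]
    rw [Matrix.trace_fin_two, hY.h00, zero_add] at e2
    exact e2
  have e1 : Qi * Y * Q = (Qi * Y * Q) 0 1 • !![0, 1; 0, 0] := by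
    ext i j
    fin_cases i <;> fin_cases j
    · simpa using hY.h00
    · simp
    · simpa using hY.h10
    · simpa using h11
  calc Y = Q * Qi * Y * (Q * Qi) := by rw [hQ, one_mul, mul_one]
    _ = Q * (Qi * Y * Q) * Qi := by simp only [mul_assoc]
    _ = _ := by
      conv_lhs => rw [e1]
      rw [mul_smul_comm, smul_mul_assoc]

theorem trace_conj_Q (hQ : Q * Qi = 1) (Y : M2 k) : (Q * Y * Qi).trace = Y.trace := by
  have hh : Qi * Q = 1 := by rw [mul_eq_one_comm]; exact hQ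
  rw [Matrix.trace_mul_comm, ← mul_assoc, hh, one_mul]

set_option maxHeartbeats 1000000 in
theorem ordL_le (hlc : ∃ F : IntermediateField ℚ Ω, FiniteDimensional ℚ F ∧
      ∀ σ : 𝒢, (∀ x ∈ F, σ x = x) → ρ σ = 1) (h : OrdB ρ p A Q Qi) : ∃ (ι : (A.decompositionSubgroup ℚ → k) →ₗ[k]
    (A.decompositionSubgroup ℚ → sl k)) (f : A.decompositionSubgroup ℚ → sl k),
    ordL ρ p A ≤ (Z1 (cycR p k) (A.decompositionSubgroup ℚ)).map ι ⊔ Submodule.span k {f} := by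
  have hn : (Q * !![0, 1; 0, 0] * Qi : M2 k).trace = 0 := by
    rw [trace_conj_Q h.inv, Matrix.trace_fin_two]; simp
  have hf : (Q * !![0, 0; 1, 0] * Qi : M2 k).trace = 0 := by
    rw [trace_conj_Q h.inv, Matrix.trace_fin_two]; simp
  set n0 : sl k := ⟨_, mem_sl.2 hn⟩ with hn0
  set f0 : sl k := ⟨_, mem_sl.2 hf⟩ with hf0
  refine ⟨LinearMap.compLeft (LinearMap.toSpanSingleton k (sl k) n0) _,
    fun σ => adR ρ (σ : 𝒢) f0 - f0, ?_⟩
  rintro c ⟨hc, hX⟩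
  obtain ⟨X, hX⟩ := hX Q Qi h
  set γ : k := (Qi * X * Q) 1 0 with hγ
  have hZ10 : (Qi * ((X : M2 k) - γ • (f0 : M2 k)) * Q) 1 0 = 0 := by
    have e1 : Qi * (f0 : M2 k) * Q = !![0, 0; 1, 0] := by
      change Qi * (Q * !![0, 0; 1, 0] * Qi) * Q = _
      calc Qi * (Q * !![0, 0; 1, 0] * Qi) * Q = (Qi * Q) * !![0, 0; 1, 0] * (Qi * Q) := by
            simp only [mul_assoc]
        _ = _ := by rw [h.inv', one_mul, mul_one]
    rw [mul_sub, sub_mul, Matrix.sub_apply, mul_smul_comm, smul_mul_assoc, e1, ← hγ]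
    simp
  set δ : A.decompositionSubgroup ℚ → sl k := fun σ => adR ρ (σ : 𝒢) f0 - f0 with hδ
  set d : A.decompositionSubgroup ℚ → sl k := c - γ • δ with hd
  have hdu : ∀ σ, Up Q Qi (d σ : M2 k) := by
    intro σ
    have e1 : (d σ : M2 k) = ((c σ : M2 k) - (ρ (σ : 𝒢) * X * ρ (σ : 𝒢)⁻¹ - X)) +
        (ρ (σ : 𝒢) * ((X : M2 k) - γ • (f0 : M2 k)) * ρ (σ : 𝒢)⁻¹ -
          ((X : M2 k) - γ • (f0 : M2 k))) := by
      change (c σ : M2 k) - γ • (ρ (σ : 𝒢) * (f0 : M2 k) * ρ (σ : 𝒢)⁻¹ - (f0 : M2 k)) = _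
      rw [mul_sub, sub_mul, mul_smul_comm, smul_mul_assoc, smul_sub]
      abel
    rw [e1]
    exact (hX σ).add (h.up_of_upper σ.2 hZ10)
  let y : A.decompositionSubgroup ℚ → k := fun σ => (Qi * (d σ : M2 k) * Q) 0 1
  have hdy : ∀ σ, d σ = y σ • n0 := fun σ => Subtype.ext (eq_of_up h.inv (hdu σ) (sl_trace _))
  have hcyc : γ • δ ∈ Submodule.span k {δ} :=
    Submodule.smul_mem _ _ (Submodule.mem_span_singleton_self _)
  have hdcoc : ∀ σ τ, d (σ * τ) = d σ + adR ρ (σ : 𝒢) (d τ) := by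
    intro σ τ
    have e1 := hc.1 σ τ
    change c (σ * τ) - γ • (adR ρ ((σ : 𝒢) * (τ : 𝒢)) f0 - f0) =
      c σ - γ • (adR ρ (σ : 𝒢) f0 - f0) + adR ρ (σ : 𝒢) (c τ - γ • (adR ρ (τ : 𝒢) f0 - f0))
    rw [e1, map_mul, Module.End.mul_apply, map_sub, map_smul, map_sub, smul_sub, smul_sub,
      smul_sub]
    abel
  have hy : y ∈ Z1 (cycR p k) (A.decompositionSubgroup ℚ) := by
    refine ⟨fun σ τ => ?_, ?_⟩
    · change (Qi * (d (σ * τ) : M2 k) * Q) 0 1 = (Qi * (d σ : M2 k) * Q) 0 1 +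
        algebraMap (ZMod p) k (cyc p (σ : 𝒢)) * (Qi * (d τ : M2 k) * Q) 0 1
      rw [hdcoc, ← h.act_n σ.2 (hdu τ) (sl_trace _)]
      change (Qi * ((d σ : M2 k) + ρ (σ : 𝒢) * (d τ : M2 k) * ρ (σ : 𝒢)⁻¹) * Q) 0 1 = _
      rw [mul_add, add_mul, Matrix.add_apply]
    · have hd2 : LC0 (A.decompositionSubgroup ℚ) d := by
        obtain ⟨F, hF, h1⟩ := hc.2
        obtain ⟨F', hF', h2⟩ := hlc
        refine ⟨F ⊔ F', inferInstance, fun σ hσ => ?_⟩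
        change c σ - γ • (adR ρ (σ : 𝒢) f0 - f0) = 0
        rw [h1 σ fun x hx => hσ x ((le_sup_left : F ≤ F ⊔ F') hx),
          adR_one' ρ (h2 _ fun x hx => hσ x ((le_sup_right : F' ≤ F ⊔ F') hx)),
          Module.End.one_apply, sub_self, smul_zero, sub_zero]
      obtain ⟨F, hF, h1⟩ := hd2
      refine ⟨F, hF, fun σ hσ => ?_⟩
      change (Qi * (d σ : M2 k) * Q) 0 1 = 0
      rw [h1 σ hσ]
      simp
  have e1 : c = (LinearMap.compLeft (LinearMap.toSpanSingleton k (sl k) n0) _) y +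
      γ • δ := by
    funext σ
    rw [Pi.add_apply]
    change c σ = y σ • n0 + _
    rw [← hdy, hd, Pi.sub_apply, sub_add_cancel]
  rw [e1]
  exact Submodule.add_mem_sup ⟨y, hy, rfl⟩ hcyc

end bound

end Fermat.Agent.LC
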