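import Fermat.Agent.LC.Mem
import Fermat.Agent.Flat.FlatAt

/-!
# The flat local condition
-/

set_option autoImplicit false
set_option linter.unusedSectionVars false
set_option linter.style.haveILetI false

noncomputable section

namespace Fermat.Agent.LC

open Matrix IsLocalRing Fermat.Agent.GalRep Fermat.Agent.Sel Fermat.Agent.TWG Fermat.Agent.Flat

local notation "Ω" => AlgebraicClosure ℚ

local notation "𝒢" => (AlgebraicClosure ℚ) ≃ₐ[ℚ] (AlgebraicClosure ℚ)

section bound

variable {k : Type} [Field k] {p : ℕ} [hp : Fact p.Prime] (ρ : 𝒢 →* M2 k)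

theorem finrank_B1_le_two {D : Subgroup 𝒢} {X : sl k} (hX : X ≠ 0)
    (h : ∀ σ ∈ D, adR ρ σ X = X) : Module.finrank k (B1 (adR ρ) D) ≤ 2 := by
  haveI : FiniteDimensional k (sl k) := by
    apply FiniteDimensional.of_finrank_pos
    rw [finrank_sl]
    norm_num
  let δ : sl k →ₗ[k] (D → sl k) := LinearMap.pi fun σ : D => (adR ρ σ - 1 : Module.End k (sl k))
  have h1 := LinearMap.finrank_range_add_finrank_ker δ
  rw [finrank_sl] at h1
  have h2 : X ∈ LinearMap.ker δ := by
    rw [LinearMap.mem_ker]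
    funext σ
    change adR ρ σ X - X = 0
    rw [h σ σ.2, sub_self]
  have h3 : 0 < Module.finrank k (LinearMap.ker δ) :=
    Module.finrank_pos_iff_exists_ne_zero.2 ⟨⟨X, h2⟩, fun h0 => hX (congrArg Subtype.val h0)⟩
  have h4 : Module.finrank k (LinearMap.range δ) ≤ 2 := by omega
  exact h4

set_option maxHeartbeats 1000000 in
theorem flatL_bound4 [Finite k] [CharP k p] [Algebra (ZMod p) k] {S₀ : Finset ℕ} (h : ResH p ρ S₀)
    {A : ValuationSubring Ω} (hA : A.LiesOverPrime p)
    (hsplit : ∀ σ, ∃ α β : k, α + β = (ρ σ).trace ∧ α * β = (ρ σ).det)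
    (hfl : FlC A hA (Fin 2 → k) (fun σ v => endV ρ σ v)) :
    FiniteDimensional k (flatL ρ p A) ∧ Module.finrank k (flatL ρ p A) ≤ 4 := by
  classical
  haveI : NeZero p := ⟨hp.out.ne_zero⟩
  obtain ⟨ζ, hζ⟩ := exists_zeta p
  let S : Set (𝒢 → Module.End k (Fin 2 → k)) := {c | Coc A (endV ρ) c ∧
    FlC A hA ((Fin 2 → k) × (Fin 2 → k)) (actE (endV ρ) c)}
  have hb := flat_bound (A := A) (p := p) (k := k) (V := Fin 2 → k) (ρ := endV ρ) hζ hA h.odd
    (by simp) (by
      intro σ hσ m hm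
      rw [endV_eq, ← Matrix.toLin'_toMatrix' (Matrix.toLinAlgEquiv' (ρ σ) : Module.End k (Fin 2 → k)),
        LinearMap.det_toLin']
      have h1 : LinearMap.toMatrix' (Matrix.toLinAlgEquiv' (ρ σ) : Module.End k (Fin 2 → k)) = ρ σ :=
        LinearMap.toMatrix'_toLin' _
      rw [h1, h.det]
      have h2 : cyc p σ = m := by
        refine cyc_eq_of_forall p σ m fun x hx => ?_
        obtain ⟨i, -, rfl⟩ := hζ.eq_pow_of_pow_eq_one hx
        rw [map_pow, hm, ← pow_mul, ← pow_mul, mul_comm]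
      rw [h2, map_natCast]) (by
      intro σ hσ
      obtain ⟨α, β, h1, h2⟩ := hsplit σ
      refine ⟨α, β, fun v => ?_⟩
      have h3 := congrArg (fun X : M2 k => X *ᵥ v) (cayley (ρ σ) h1 h2)
      simp only [← Matrix.mulVec_mulVec, Matrix.sub_mulVec, Matrix.smul_mulVec,
        Matrix.one_mulVec] at h3
      exact h3) (by
      obtain ⟨F, hF, h1⟩ := h.lc
      refine ⟨F, hF, fun σ hσ => ?_⟩
      rw [endV_eq, h1 σ hσ, map_one]) hfl S (fun c hc => hc)
  -- the comparison
  have hle : (flatL ρ p A).map (coeD A) ≤ (B1 (adR ρ) _).map (coeD A) ⊔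
      LinearMap.range ((rstM A).comp (Submodule.span k S).subtype) := by
    rw [flatL, Submodule.map_sup]
    refine sup_le_sup_left ?_ _
    rw [LinearMap.range_comp, Submodule.range_subtype, Submodule.map_span, Submodule.map_span]
    refine Submodule.span_mono ?_
    rintro _ ⟨c, ⟨hc, hA', c', h1, h2⟩, rfl⟩
    refine ⟨fun σ => Matrix.toLinAlgEquiv' (c' σ), ⟨⟨fun σ τ hσ hτ => ?_, fun σ hσ => ?_, ?_⟩, h2⟩,
      ?_⟩
    · have e1 : c' σ = c ⟨σ, mem_dec_pres.2 hσ⟩ := h1 ⟨σ, mem_dec_pres.2 hσ⟩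
      have e2 : c' τ = c ⟨τ, mem_dec_pres.2 hτ⟩ := h1 ⟨τ, mem_dec_pres.2 hτ⟩
      have e3 := h1 (⟨σ, mem_dec_pres.2 hσ⟩ * ⟨τ, mem_dec_pres.2 hτ⟩)
      have e4 := congrArg Subtype.val (hc.1 ⟨σ, mem_dec_pres.2 hσ⟩ ⟨τ, mem_dec_pres.2 hτ⟩)
      rw [← e3] at e4
      change c' (σ * τ) = (c ⟨σ, _⟩ : M2 k) + ρ σ * (c ⟨τ, _⟩ : M2 k) * ρ σ⁻¹ at e4
      rw [← e1, ← e2] at e4
      rw [e4, map_add, endV_eq, endV_eq, mul_toLin, mul_toLin]
    · have e1 : c' σ = c ⟨σ, mem_dec_pres.2 hσ⟩ := h1 ⟨σ, mem_dec_pres.2 hσ⟩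
      rw [e1]
      have : LinearMap.trace k (Fin 2 → k) (Matrix.toLinAlgEquiv'
          ((c ⟨σ, mem_dec_pres.2 hσ⟩ : M2 k))) = ((c ⟨σ, mem_dec_pres.2 hσ⟩ : M2 k)).trace :=
        Matrix.trace_toLin'_eq _
      rw [this]
      exact sl_trace _
    · obtain ⟨F, hF, h3⟩ := hc.2
      refine ⟨F, hF, fun σ hσ hx => ?_⟩
      have e1 : c' σ = c ⟨σ, mem_dec_pres.2 hσ⟩ := h1 ⟨σ, mem_dec_pres.2 hσ⟩
      rw [e1, h3 _ hx]
      exact map_zero _
    · funext σ
      change Matrix.toLinAlgEquiv'.symm (Matrix.toLinAlgEquiv' (c' σ)) = _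
      rw [AlgEquiv.symm_apply_apply, h1]
      rfl
  have hB : ∀ c : Submodule.span k S, c ∈ locB A (endV ρ) (Submodule.span k S) →
      ((rstM A).comp (Submodule.span k S).subtype) c ∈ (B1 (adR ρ) _).map (coeD A) := by
    rintro c ⟨X, hX⟩
    have h2k : (2 : k) ≠ 0 := h.two
    set X' : M2 k := Matrix.toLinAlgEquiv'.symm X with hX'
    have htr : (X' - (X'.trace / 2) • (1 : M2 k)).trace = 0 := by
      rw [Matrix.trace_sub, Matrix.trace_smul, Matrix.trace_one, Fintype.card_fin]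
      simp only [smul_eq_mul, Nat.cast_ofNat]
      field_simp
      ring
    refine ⟨_, ⟨⟨X' - (X'.trace / 2) • (1 : M2 k), mem_sl.2 htr⟩, rfl⟩, ?_⟩
    funext σ
    change (ρ σ * (X' - (X'.trace / 2) • (1 : M2 k)) * ρ (σ : 𝒢)⁻¹) -
      (X' - (X'.trace / 2) • (1 : M2 k)) = Matrix.toLinAlgEquiv'.symm
        ((c : 𝒢 → Module.End k (Fin 2 → k)) σ)
    rw [hX σ (mem_dec_pres.1 σ.2)]
    have hXX : X = Matrix.toLinAlgEquiv' X' := (AlgEquiv.apply_symm_apply _ _).symm
    rw [hXX, endV_eq, endV_eq, mul_toLin, mul_toLin, ← map_sub, AlgEquiv.symm_apply_apply]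
    have h5 : ρ (σ : 𝒢) * ρ (σ : 𝒢)⁻¹ = 1 := rho_mul_inv (ρ := ρ) _
    rw [mul_sub, sub_mul, mul_smul_comm, mul_one, smul_mul_assoc, h5]
    abel
  haveI : FiniteDimensional k (sl k) := by
    apply FiniteDimensional.of_finrank_pos
    rw [finrank_sl]
    norm_num
  haveI : FiniteDimensional k (B1 (adR ρ) (A.decompositionSubgroup ℚ)) :=
    Module.Finite.range _
  have hB3 : Module.finrank k ((B1 (adR ρ) (A.decompositionSubgroup ℚ)).map (coeD A)) ≤ 3 :=
    (Submodule.finrank_map_le _ _).trans (finrank_B1_le ρ _)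
  have key : FiniteDimensional k ((B1 (adR ρ) _).map (coeD A) ⊔
      LinearMap.range ((rstM A).comp (Submodule.span k S).subtype) : Submodule k _) ∧
      Module.finrank k ((B1 (adR ρ) _).map (coeD A) ⊔
      LinearMap.range ((rstM A).comp (Submodule.span k S).subtype) : Submodule k _) ≤ 4 := by
    rcases hb with ⟨Λ, hΛ⟩ | ⟨hH, Λ, hΛ⟩
    · obtain ⟨h1, h2⟩ := finrank_sup_range_le ((B1 (adR ρ) _).map (coeD A))
        ((rstM A).comp (Submodule.span k S).subtype) Λ fun w hw => hB w (hΛ w hw)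
      exact ⟨h1, by omega⟩
    · obtain ⟨h1, h2⟩ := finrank_sup_range_le ((B1 (adR ρ) _).map (coeD A))
        ((rstM A).comp (Submodule.span k S).subtype) Λ fun w hw => hB w (hΛ w hw)
      obtain ⟨H, hH0, hHt, hHc⟩ := hH
      have hB2 : Module.finrank k ((B1 (adR ρ) (A.decompositionSubgroup ℚ)).map (coeD A)) ≤ 2 := by
        refine (Submodule.finrank_map_le _ _).trans ?_
        set X' : M2 k := Matrix.toLinAlgEquiv'.symm H with hX'
        have hHX : H = Matrix.toLinAlgEquiv' X' := (AlgEquiv.apply_symm_apply _ _).symm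
        have hXt : X'.trace = 0 := by
          rw [hHX] at hHt
          rw [← hHt]
          exact (Matrix.trace_toLin'_eq _).symm
        have hX0 : X' ≠ 0 := by
          intro h0
          apply hH0
          rw [hHX, h0, map_zero]
        refine finrank_B1_le_two ρ (X := ⟨X', mem_sl.2 hXt⟩)
          (fun h0 => hX0 (congrArg Subtype.val h0)) fun σ hσ => ?_
        have e1 := hHc σ (mem_dec_pres.1 hσ)
        rw [hHX, endV_eq, mul_toLin, mul_toLin] at e1
        have e2 : ρ σ * X' = X' * ρ σ := Matrix.toLinAlgEquiv'.injective e1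
        apply Subtype.ext
        rw [coe_adR]
        change ρ σ * X' * ρ σ⁻¹ = X'
        rw [e2, mul_assoc, Sel.rho_mul_inv, mul_one]
      exact ⟨h1, by omega⟩
  haveI := key.1
  haveI : FiniteDimensional k ((flatL ρ p A).map (coeD A)) := Submodule.finiteDimensional_of_le hle
  let eq := Submodule.equivMapOfInjective (coeD A) (coeD_injective A) (flatL ρ p A)
  haveI : FiniteDimensional k (flatL ρ p A) := LinearEquiv.finiteDimensional eq.symm
  refine ⟨inferInstance, ?_⟩
  rw [LinearEquiv.finrank_eq eq]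
  exact (Submodule.finrank_mono hle).trans key.2

end bound

section mem

variable {p : ℕ} [hp : Fact p.Prime] {A : ValuationSubring Ω}

theorem mem_smul_top_iff {T V : Type} [CommRing T] [AddCommGroup V] [Module T V]
    (b : Module.Basis (Fin 2) T V) (I : Ideal T) (v : V) :
    v ∈ I • (⊤ : Submodule T V) ↔ ∀ i, b.repr v i ∈ I := by
  constructor
  · intro h i
    refine Submodule.smul_induction_on (p := fun v => b.repr v i ∈ I) h ?_ ?_
    · intro a ha w _
      rw [map_smul, Finsupp.smul_apply, smul_eq_mul]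
      exact I.mul_mem_right _ ha
    · intro x y hx hy
      rw [map_add, Finsupp.add_apply]
      exact I.add_mem hx hy
  · intro h
    rw [← b.sum_repr v]
    exact Submodule.sum_mem _ fun i _ => Submodule.smul_mem_smul (h i) trivial

theorem flC_of_theta (hA : A.LiesOverPrime p) (hp2 : p ≠ 2) {T : Type} [CommRing T]
    [IsLocalRing T] {P : GaloisRepAdic T} (b : Module.Basis (Fin 2) T P.V) (hfl : P.IsFlatAt p)
    {S' : Type} [CommRing S'] [Finite S'] (θ : T →+* S') (hθ : Function.Surjective θ)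
    (hp0 : θ (p : T) = 0) {U' : Type} [AddCommGroup U'] (E : (Fin 2 → S') ≃+ U')
    {act' : 𝒢 → U' → U'}
    (hact : ∀ σ v, E ((DefRing.toMatRep P b σ).map θ *ᵥ v) = act' σ (E v)) :
    FlC A hA U' act' := by
  set I := RingHom.ker θ with hI
  haveI : Finite (T ⧸ I) := Finite.of_equiv _ (RingHom.quotientKerEquivOfSurjective hθ).toEquiv.symm
  let j : P.V →+ (Fin 2 → S') :=
    { toFun := fun v i => θ (b.repr v i)
      map_zero' := by
        funext i
        rw [map_zero, Finsupp.zero_apply, map_zero]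
        rfl
      map_add' := fun v w => by
        funext i
        rw [map_add, Finsupp.add_apply, map_add]
        rfl }
  have hjker : ∀ v, j v = 0 ↔ v ∈ I • (⊤ : Submodule T P.V) := by
    intro v
    rw [mem_smul_top_iff b]
    exact ⟨fun h i => congrFun h i, fun h => funext h⟩
  let jq : (P.V ⧸ (I • (⊤ : Submodule T P.V))) →+ (Fin 2 → S') :=
    QuotientAddGroup.lift _ j fun v hv => (hjker v).2 hv
  have hjq : ∀ v, jq (Submodule.Quotient.mk v) = j v := fun v => rfl
  have hjqi : Function.Injective jq := by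
    rw [injective_iff_map_eq_zero]
    intro x hx
    obtain ⟨v, rfl⟩ := Submodule.Quotient.mk_surjective _ x
    rw [hjq, hjker] at hx
    exact (Submodule.Quotient.mk_eq_zero _).2 hx
  have hjqs : Function.Surjective jq := by
    intro w
    choose s hs using hθ
    refine ⟨Submodule.Quotient.mk (∑ i, s (w i) • b i), ?_⟩
    rw [hjq]
    funext i
    change θ (b.repr (∑ i, s (w i) • b i) i) = w i
    rw [b.repr_sum_self, hs]
  let e := AddEquiv.ofBijective jq ⟨hjqi, hjqs⟩
  refine flC_of_isFlatAt hA hp2 hfl (I := I) hp0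
    ((e.symm.toAddMonoidHom).comp E.symm.toAddMonoidHom)
    (e.symm.injective.comp E.symm.injective) fun σ _ u => ?_
  obtain ⟨w, rfl⟩ := E.surjective u
  obtain ⟨x, rfl⟩ := hjqs w
  rw [← hact]
  change e.symm (E.symm (E _)) = P.levelAction I σ (e.symm (E.symm (E (jq x))))
  rw [E.symm_apply_apply, E.symm_apply_apply]
  have e1 : e.symm (jq x) = x := e.symm_apply_apply x
  rw [e1]
  apply e.injective
  rw [e.apply_symm_apply]
  change _ = jq (P.levelAction I σ x)
  obtain ⟨v, rfl⟩ := Submodule.Quotient.mk_surjective _ x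
  have e2 : P.levelAction I σ (Submodule.Quotient.mk v) = Submodule.Quotient.mk (P.ρ σ v) := rfl
  rw [e2, hjq, hjq]
  funext i
  change ((DefRing.toMatRep P b σ).map θ *ᵥ fun l => θ (b.repr v l)) i = θ (b.repr (P.ρ σ v) i)
  have e3 := congrFun (LinearMap.toMatrix_mulVec_repr b b (P.ρ σ) v) i
  rw [← e3, DefRing.toMatRep_apply]
  simp only [Matrix.mulVec, dotProduct, Matrix.map_apply, map_sum, map_mul]

variable {𝒪 : Type} [CommRing 𝒪] [IsLocalRing 𝒪] {ρ : 𝒢 →* M2 (ResidueField 𝒪)} {T : Type}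
  [CommRing T] [IsLocalRing T] [Algebra 𝒪 T] {π : T →+* ResidueField 𝒪} {P : GaloisRepAdic T}
  {b : Module.Basis (Fin 2) T P.V} (L : Lift ρ π P b)

/-- the residual condition -/
def RF {k : Type} [Field k] (ρ : 𝒢 →* M2 k) (p : ℕ) [Fact p.Prime] : Prop :=
  ∀ (A : ValuationSubring Ω) (hA : A.LiesOverPrime p),
    FlC A hA (Fin 2 → k) (fun σ v => endV ρ σ v)

include L in
theorem pi_surj : Function.Surjective π := by
  intro x
  obtain ⟨a, rfl⟩ := residue_surjective x
  exact ⟨algebraMap 𝒪 T a, L.res a⟩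

include L in
theorem resF [Finite (ResidueField 𝒪)] [CharP (ResidueField 𝒪) p] (hp2 : p ≠ 2)
    (h : P.IsFlatAt p) : RF ρ p := by
  intro A hA
  refine flC_of_theta hA hp2 b h π (pi_surj L) ?_ (AddEquiv.refl _) fun σ v => ?_
  · rw [map_natCast, CharP.cast_eq_zero]
  · rw [L.red]
    rfl

/-- the homomorphism to the dual numbers -/
def thD {O : Set T} {I : Ideal T} {D : T → ResidueField 𝒪} (hD : IsDer π O I D) :
    T →+* DualNumber (ResidueField 𝒪) where
  toFun a := TrivSqZeroExt.inl (π a) + TrivSqZeroExt.inr (D a)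
  map_one' := by rw [map_one, hD.one, TrivSqZeroExt.inr_zero, add_zero, TrivSqZeroExt.inl_one]
  map_mul' a b := by
    rw [map_mul, hD.mul]
    ext
    · simp
    · simp
      ring
  map_zero' := by rw [map_zero, hD.zero, TrivSqZeroExt.inr_zero, add_zero, TrivSqZeroExt.inl_zero]
  map_add' a b := by
    rw [map_add, hD.add]
    ext
    · simp
    · simp

theorem thD_fst {O : Set T} {I : Ideal T} {D : T → ResidueField 𝒪} (hD : IsDer π O I D) (a : T) :
    (thD hD a).fst = π a := by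
  change (TrivSqZeroExt.inl (π a) + TrivSqZeroExt.inr (D a)).fst = _
  simp

theorem thD_snd {O : Set T} {I : Ideal T} {D : T → ResidueField 𝒪} (hD : IsDer π O I D) (a : T) :
    (thD hD a).snd = D a := by
  change (TrivSqZeroExt.inl (π a) + TrivSqZeroExt.inr (D a)).snd = _
  simp

variable {I : Ideal T} {D : T → ResidueField 𝒪}
  (hD : IsDer π (Set.range (algebraMap 𝒪 T)) I D) {c : 𝒢 → sl (ResidueField 𝒪)}
  (hc : ∀ σ, (c σ : M2 (ResidueField 𝒪)) = cD (DefRing.toMatRep P b) π D σ)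

include L in
theorem thD_surj {t₀ : T} (h0 : D t₀ ≠ 0) : Function.Surjective (thD hD) := by
  intro x
  obtain ⟨a, ha⟩ := residue_surjective (x.snd / D t₀)
  obtain ⟨a', ha'⟩ := residue_surjective (x.fst - π (algebraMap 𝒪 T a) * π t₀)
  refine ⟨algebraMap 𝒪 T a' + algebraMap 𝒪 T a * t₀, ?_⟩
  apply TrivSqZeroExt.ext
  · rw [thD_fst, map_add, map_mul, L.res a', ha']
    ring
  · rw [thD_snd, hD.add, hD.zeroO _ ⟨a', rfl⟩, hD.mul, hD.zeroO _ ⟨a, rfl⟩, L.res a, ha]
    field_simp
    ring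

include L hD hc in
theorem memF [Finite (ResidueField 𝒪)] [CharP (ResidueField 𝒪) p] (hp2 : p ≠ 2)
    (h : P.IsFlatAt p) {A : ValuationSubring Ω} (hA : A.LiesOverPrime p) :
    (fun σ : A.decompositionSubgroup ℚ => c σ) ∈ flatL ρ p A := by
  by_cases h0 : ∀ t, D t = 0
  · have h1 : (fun σ : A.decompositionSubgroup ℚ => c σ) = 0 := by
      funext σ
      apply Subtype.ext
      change (c σ : M2 (ResidueField 𝒪)) = 0
      rw [hc, cD]
      have h2 : (DefRing.toMatRep P b (σ : 𝒢)).map D = 0 := by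
        ext i j
        exact h0 _
      rw [h2, zero_mul]
    rw [h1]
    exact Submodule.zero_mem _
  · push Not at h0
    obtain ⟨t₀, ht₀⟩ := h0
    refine (le_sup_right : Submodule.span _ (flatS ρ p A) ≤ _) (Submodule.subset_span ?_)
    refine ⟨Z1_of_lift L hD hc A, hA, fun σ => (c σ : M2 (ResidueField 𝒪)), fun σ => rfl, ?_⟩
    haveI : Finite (DualNumber (ResidueField 𝒪)) :=
      inferInstanceAs (Finite (ResidueField 𝒪 × ResidueField 𝒪))
    refine flC_of_theta hA hp2 b h (thD hD) (thD_surj L hD ht₀) ?_ (dualE (ResidueField 𝒪))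
      fun σ v => ?_
    · rw [map_natCast]
      apply TrivSqZeroExt.ext
      · rw [TrivSqZeroExt.fst_natCast, CharP.cast_eq_zero, TrivSqZeroExt.fst_zero]
      · rw [TrivSqZeroExt.snd_natCast, TrivSqZeroExt.snd_zero]
    · have e1 : (Matrix.of fun a' b' => (((DefRing.toMatRep P b σ).map (thD hD)) a' b').fst) =
          ρ σ := by
        ext i j
        rw [Matrix.of_apply, Matrix.map_apply, thD_fst, ← L.red, Matrix.map_apply]
      have e2 : (Matrix.of fun a' b' => (((DefRing.toMatRep P b σ).map (thD hD)) a' b').snd) =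
          (DefRing.toMatRep P b σ).map D := by
        ext i j
        rw [Matrix.of_apply, Matrix.map_apply, thD_snd, Matrix.map_apply]
      have e3 : (c σ : M2 (ResidueField 𝒪)) * ρ σ = (DefRing.toMatRep P b σ).map D := by
        rw [hc, cD, redR_lift L, mul_assoc, Sel.rho_inv_mul, mul_one]
      exact dualE_mulVec _ v e1 e2 e3

/-- **the bound for the flat condition** -/
theorem dimF {k : Type} [Field k] {ρ : 𝒢 →* M2 k} {p : ℕ} [hp : Fact p.Prime] [CharP k p]
    [Finite k] [Algebra (ZMod p) k] {S : Finset ℕ} (h : ResH p ρ S)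
    (hsplit : ∀ σ, ∃ α β : k, α + β = (ρ σ).trace ∧ α * β = (ρ σ).det) (hF : RF ρ p)
    {A : ValuationSubring Ω} (hA : A.LiesOverPrime p) :
    FiniteDimensional k (flatL ρ p A) ∧ Module.finrank k (flatL ρ p A) ≤ 4 :=
  flatL_bound4 ρ h hA hsplit (hF A hA)

end mem

end Fermat.Agent.LC
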