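import Fermat.Agent.LC.Unip
import Fermat.Agent.TWG.Lift

/-!
# The tangent cocycles and the unipotent local condition
-/

set_option autoImplicit false
set_option linter.unusedSectionVars false
set_option linter.style.haveILetI false

noncomputable section

namespace Fermat.Agent.LC

open Matrix IsLocalRing Fermat.Agent.GalRep Fermat.Agent.Sel Fermat.Agent.TWG

local notation "Ω" => AlgebraicClosure ℚ

local notation "𝒢" => (AlgebraicClosure ℚ) ≃ₐ[ℚ] (AlgebraicClosure ℚ)

theorem der_sq {T : Type} [CommRing T] [IsLocalRing T] {k : Type} [Field k] {π : T →+* k}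
    (hker : RingHom.ker π = maximalIdeal T) {O : Set T} {I : Ideal T} {D : T → k}
    (hD : IsDer π O I D) {x : T} (hx : x ∈ maximalIdeal T ^ 2) : D x = 0 := by
  rw [pow_two] at hx
  refine Submodule.mul_induction_on hx (fun a ha b hb => ?_) (fun a b ha hb => ?_)
  · have h1 : π a = 0 := by rw [← hker] at ha; exact ha
    have h2 : π b = 0 := by rw [← hker] at hb; exact hb
    rw [hD.mul, h1, h2, zero_mul, zero_mul, add_zero]
  · rw [hD.add, ha, hb, add_zero]

variable {𝒪 : Type} [CommRing 𝒪] [IsLocalRing 𝒪] {ρ : 𝒢 →* M2 (ResidueField 𝒪)} {T : Type}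
  [CommRing T] [IsLocalRing T] [Algebra 𝒪 T] {π : T →+* ResidueField 𝒪} {P : GaloisRepAdic T}
  {b : Module.Basis (Fin 2) T P.V} (L : Lift ρ π P b)

include L in
theorem redR_lift : redR (DefRing.toMatRep P b) π = ρ := by
  refine MonoidHom.ext fun σ => ?_
  exact L.red σ

section mem

variable {O : Set T} {I : Ideal T} {D : T → ResidueField 𝒪}
  (hD : IsDer π O I D) {c : 𝒢 → sl (ResidueField 𝒪)}
  (hc : ∀ σ, (c σ : M2 (ResidueField 𝒪)) = cD (DefRing.toMatRep P b) π D σ)

include L hD hc in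
theorem coc_of_lift (σ τ : 𝒢) : c (σ * τ) = c σ + adR ρ σ (c τ) := by
  apply Subtype.ext
  change (c (σ * τ) : M2 (ResidueField 𝒪)) = c σ + ρ σ * c τ * ρ σ⁻¹
  rw [hc, hc, hc, cD_mul hD, redR_lift L]

include L hD hc in
theorem lc_of_lift : ∃ F : IntermediateField ℚ Ω, FiniteDimensional ℚ F ∧
    ∀ σ : 𝒢, (∀ x ∈ F, σ x = x) → c σ = 0 := by
  obtain ⟨F, hF, h⟩ := DefRing.toMatRep_cont P b 2
  refine ⟨F, hF, fun σ hσ => ?_⟩
  apply Subtype.ext
  rw [hc]
  change (DefRing.toMatRep P b σ).map D * _ = 0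
  have h1 : (DefRing.toMatRep P b σ).map D = 0 := by
    ext i j
    rw [Matrix.map_apply, Matrix.zero_apply]
    have h2 := der_sq L.ker hD (h σ hσ i j)
    have h3 : DefRing.toMatRep P b σ i j = (DefRing.toMatRep P b σ - 1) i j +
        (1 : Matrix (Fin 2) (Fin 2) T) i j := by
      rw [Matrix.sub_apply]; ring
    rw [h3, hD.add, h2, zero_add, Matrix.one_apply]
    split_ifs
    · exact hD.one
    · exact hD.zero
  rw [h1, zero_mul]

include L hD hc in
theorem Z1_of_lift (A : ValuationSubring Ω) :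
    (fun σ : A.decompositionSubgroup ℚ => c σ) ∈ Z1 (adR ρ) (A.decompositionSubgroup ℚ) := by
  obtain ⟨F, hF, h⟩ := lc_of_lift L hD hc
  exact ⟨fun σ τ => coc_of_lift L hD hc σ τ, F, hF, fun σ hσ => h σ hσ⟩

/-! ### the unipotent condition -/

/-- the residual condition -/
def RU {k : Type} [Field k] (ρ : 𝒢 →* M2 k) (v : ℕ) : Prop :=
  ∀ A : ValuationSubring Ω, A.LiesOverPrime v → ∀ σ ∈ A.inertiaSubgroupIn ℚ,
    (ρ σ - 1) * (ρ σ - 1) = 0

theorem charpoly_toMatRep (σ : 𝒢) :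
    (DefRing.toMatRep P b σ).charpoly = LinearMap.charpoly (P.ρ σ) := by
  rw [DefRing.toMatRep_apply, LinearMap.charpoly_toMatrix]

theorem trace_of_charpoly {R : Type} [CommRing R] [Nontrivial R] {X : Matrix (Fin 2) (Fin 2) R}
    (h : X.charpoly = (Polynomial.X - 1) ^ 2) : X.trace = 2 ∧ (X - 1) * (X - 1) = 0 := by
  constructor
  · have h1 := Matrix.trace_eq_neg_charpoly_coeff X
    rw [h, Fintype.card_fin] at h1
    rw [h1]
    have h2 : ((Polynomial.X - 1 : Polynomial R) ^ 2) =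
        Polynomial.X ^ 2 - 2 * Polynomial.X + 1 := by ring
    rw [h2]
    have h3 : (2 * Polynomial.X : Polynomial R) = Polynomial.C 2 * Polynomial.X := by
      rw [map_ofNat]
    rw [h3, Polynomial.coeff_add, Polynomial.coeff_sub, Polynomial.coeff_C_mul,
      Polynomial.coeff_X_pow, Polynomial.coeff_X, Polynomial.coeff_one]
    norm_num
  · have h1 := Matrix.aeval_self_charpoly X
    rw [h, map_pow, map_sub, Polynomial.aeval_X, map_one, pow_two] at h1
    exact h1

include L in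
theorem resU {v : ℕ} (h : P.IsUnipotentOnInertiaAt v) : RU ρ v := by
  intro A hA σ hσ
  have h1 := h A hA σ hσ
  rw [← charpoly_toMatRep (b := b)] at h1
  have h2 := (trace_of_charpoly h1).2
  have h3 : ρ σ = π.mapMatrix (DefRing.toMatRep P b σ) := (L.red σ).symm
  rw [h3, ← map_one (π.mapMatrix : Matrix (Fin 2) (Fin 2) T →+* M2 (ResidueField 𝒪)), ← map_sub,
    ← map_mul, h2, map_zero]

include L hD hc in
theorem memU {v : ℕ} (h : P.IsUnipotentOnInertiaAt v) {A : ValuationSubring Ω}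
    (hA : A.LiesOverPrime v) : (fun σ : A.decompositionSubgroup ℚ => c σ) ∈ unipL ρ A := by
  refine ⟨Z1_of_lift L hD hc A, fun σ hσ => ?_⟩
  have h1 := h A hA σ hσ
  rw [← charpoly_toMatRep (b := b)] at h1
  have h2 := (trace_of_charpoly h1).1
  change ((c σ : M2 (ResidueField 𝒪)) * ρ (σ : 𝒢)).trace = 0
  have h3 : (c σ : M2 (ResidueField 𝒪)) * ρ (σ : 𝒢) =
      (DefRing.toMatRep P b (σ : 𝒢)).map D := by
    rw [hc, cD, redR_lift L, mul_assoc, rho_inv_mul, mul_one]
  rw [h3, Matrix.trace_fin_two, Matrix.map_apply, Matrix.map_apply, ← hD.add,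
    ← Matrix.trace_fin_two, h2, ← one_add_one_eq_two, hD.add, hD.one, add_zero]

/-- **the bound for the unipotent condition** -/
theorem dimU {k : Type} [Field k] {ρ : 𝒢 →* M2 k} {p : ℕ} [hp : Fact p.Prime] [CharP k p]
    [Finite k] [Algebra (ZMod p) k] {S : Finset ℕ} (h : ResH p ρ S) {v : ℕ} (hv : v.Prime)
    (hpv : v ≠ p) (hU : RU ρ v)
    (hram : ∃ A : ValuationSubring Ω, A.LiesOverPrime v ∧ ∃ σ ∈ A.inertiaSubgroupIn ℚ, ρ σ ≠ 1)
    {A : ValuationSubring Ω} (hA : A.LiesOverPrime v) :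
    FiniteDimensional k (unipL ρ A) ∧ Module.finrank k (unipL ρ A) ≤ 3 := by
  haveI : Fact v.Prime := ⟨hv⟩
  refine finrank_unipL_le (p := p) h.two h.lc hpv.symm hA (hU A hA) ?_
  obtain ⟨A', hA', σ, hσ, h1⟩ := hram
  obtain ⟨g, hg⟩ := Places.exists_smul_eq_of_liesOverPrime hv A A' hA hA'
  rw [← hg] at hσ
  refine ⟨g⁻¹ * σ * g, conj_inertia hσ, fun h2 => h1 ?_⟩
  have h3 : σ = g * (g⁻¹ * σ * g) * g⁻¹ := by group
  rw [h3, map_mul, map_mul, h2, mul_one, rho_mul_inv]

end mem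

end Fermat.Agent.LC
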