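import Fermat.Agent.LC.Ord
import Fermat.Agent.CFT.GW26
import Fermat.Prelude.Def_GaloisRep_StrictOrdinary

/-!
# The strict ordinary local condition: dimension and tangent cocycles
-/

set_option autoImplicit false
set_option linter.unusedSectionVars false
set_option linter.style.haveILetI false

noncomputable section

namespace Fermat.Agent.LC

open Matrix IsLocalRing Fermat.Agent.GalRep Fermat.Agent.Sel Fermat.Agent.TWG Fermat.Agent.Places

local notation "Ω" => AlgebraicClosure ℚ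

local notation "𝒢" => (AlgebraicClosure ℚ) ≃ₐ[ℚ] (AlgebraicClosure ℚ)

section dim

variable {k : Type} [Field k] {p : ℕ} [hp : Fact p.Prime] [Algebra (ZMod p) k]

/-- the cocycles with values in the cyclotomic line -/
theorem finrank_Z1_cyc (hp2 : p ≠ 2) [Finite k] {A : ValuationSubring Ω}
    (hA : A.LiesOverPrime p) :
    FiniteDimensional k (Z1 (cycR p k) (A.decompositionSubgroup ℚ)) ∧
      Module.finrank k (Z1 (cycR p k) (A.decompositionSubgroup ℚ)) = 3 := by
  haveI : Module.Finite (ZMod p) k := Module.Finite.of_finite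
  obtain ⟨lam, hlam⟩ : ∃ lam : k →ₗ[ZMod p] ZMod p, lam ≠ 0 := by
    by_contra hcon
    push Not at hcon
    have h1 : (1 : k) = 0 := by
      rw [← Module.forall_dual_apply_eq_zero_iff (ZMod p)]
      intro φ
      rw [hcon φ, LinearMap.zero_apply]
    exact one_ne_zero h1
  let B : k →ₗ[ZMod p] k →ₗ[ZMod p] ZMod p :=
    LinearMap.mk₂ (ZMod p) (fun x y => lam (x * y))
      (fun x x' y => by rw [add_mul, map_add])
      (fun c x y => by rw [smul_mul_assoc, map_smul])
      (fun x y y' => by rw [mul_add, map_add])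
      (fun c x y => by rw [mul_smul_comm, map_smul])
  have hl : ∀ x : k, (∀ t : k, lam (x * t) = 0) → x = 0 := by
    intro x hx
    by_contra hx0
    apply hlam
    refine LinearMap.ext fun y => ?_
    have := hx (x⁻¹ * y)
    rwa [mul_inv_cancel_left₀ hx0] at this
  have hD : DualReps p {p} (resS (p := p) (cycR p k)) (1 : 𝒢 →* Module.End (ZMod p) k) B :=
    { prime := fun v hv => by
        rw [Finset.mem_singleton] at hv
        rw [hv]; exact hp.out
      mem := Finset.mem_singleton_self p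
      lc := by
        obtain ⟨L, hL, h1⟩ := exists_level_cyc p
        refine ⟨L, hL, fun σ hσ => ⟨?_, rfl⟩⟩
        refine LinearMap.ext fun x => ?_
        change algebraMap (ZMod p) k (cyc p σ) * x = x
        rw [h1 σ hσ, map_one, one_mul]
      unr := fun l hl' hlS A' hA' σ hσ => ⟨by
        refine LinearMap.ext fun x => ?_
        change algebraMap (ZMod p) k (cyc p σ) * x = x
        have hlp : l ≠ p := fun h => hlS (by rw [h]; exact Finset.mem_singleton_self p)
        rw [cyc_inertia ((Nat.coprime_primes hl' hp.out).2 hlp) hA' hσ, map_one, one_mul], rfl⟩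
      nd := fun x hx => hl x hx
      nd' := fun y hy => hl y fun t => by rw [mul_comm]; exact hy t
      eq := fun σ x y => by
        change lam ((algebraMap (ZMod p) k (cyc p σ) * x) * y) = cyc p σ * lam (x * y)
        rw [mul_assoc, ← Algebra.smul_def, map_smul, smul_eq_mul] }
  have h1 := CFT.locDimP hp2 k k {p} _ _ B hD A hA
  have h2 : Module.finrank (ZMod p) (H0 (1 : 𝒢 →* Module.End (ZMod p) k)
      (A.decompositionSubgroup ℚ)) = Module.finrank (ZMod p) k := by
    have h3 : H0 (1 : 𝒢 →* Module.End (ZMod p) k) (A.decompositionSubgroup ℚ) = ⊤ := by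
      rw [eq_top_iff]
      intro x _ σ _
      rfl
    rw [h3, finrank_top]
  have h3 : Module.finrank (ZMod p) (Z1 (resS (p := p) (cycR p k)) (A.decompositionSubgroup ℚ)) =
      Module.finrank (ZMod p) k *
        Module.finrank k (Z1 (cycR p k) (A.decompositionSubgroup ℚ)) :=
    finrank_res (p := p) (Z1 (cycR p k) (A.decompositionSubgroup ℚ))
  rw [h2, h3] at h1
  have hd : 0 < Module.finrank (ZMod p) k := Module.finrank_pos
  have h4 : Module.finrank k (Z1 (cycR p k) (A.decompositionSubgroup ℚ)) = 3 := by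
    apply Nat.eq_of_mul_eq_mul_left hd
    rw [h1]
    ring
  exact ⟨FiniteDimensional.of_finrank_pos (by rw [h4]; norm_num), h4⟩

/-- **the bound for the strict ordinary condition** -/
theorem dimO {ρ : 𝒢 →* M2 k} [Finite k] {S : Finset ℕ} (h : ResH p ρ S) (hO : RO ρ p)
    {A : ValuationSubring Ω} (hA : A.LiesOverPrime p) :
    FiniteDimensional k (ordL ρ p A) ∧ Module.finrank k (ordL ρ p A) ≤ 4 := by
  obtain ⟨Q, Qi, hQ⟩ := hO A hA
  obtain ⟨ι, f, hle⟩ := ordL_le h.lc hQ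
  obtain ⟨h1, h2⟩ := finrank_Z1_cyc (k := k) h.odd hA
  haveI := h1
  haveI : FiniteDimensional k
    ((Z1 (cycR p k) (A.decompositionSubgroup ℚ)).map ι) := inferInstance
  refine ⟨Submodule.finiteDimensional_of_le hle, (Submodule.finrank_mono hle).trans
    ((Submodule.finrank_add_le_finrank_add_finrank _ _).trans ?_)⟩
  have h3 := Submodule.finrank_map_le ι (Z1 (cycR p k) (A.decompositionSubgroup ℚ))
  have h4 : Module.finrank k (Submodule.span k {f}) ≤ 1 := by
    have := finrank_span_le_card (R := k) ({f} : Set (A.decompositionSubgroup ℚ → sl k))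
    simpa using this
  omega

end dim

section mem

variable {𝒪 : Type} [CommRing 𝒪] [IsLocalRing 𝒪] {ρ : 𝒢 →* M2 (ResidueField 𝒪)} {T : Type}
  [CommRing T] [IsLocalRing T] [Algebra 𝒪 T] {π : T →+* ResidueField 𝒪} {P : GaloisRepAdic T}
  {b : Module.Basis (Fin 2) T P.V} (L : Lift ρ π P b)
  {p : ℕ} [hp : Fact p.Prime] [Algebra (ZMod p) (ResidueField 𝒪)]

/-- the shape of the matrices in an adapted basis -/
theorem exists_adapted (h : P.IsStrictOrdinaryAt p) {A : ValuationSubring Ω}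
    (hA : A.LiesOverPrime p) (b : Module.Basis (Fin 2) T P.V) :
    ∃ Qt Qti : Matrix (Fin 2) (Fin 2) T, Qt * Qti = 1 ∧
    (∀ σ ∈ A.decompositionSubgroup ℚ, (Qti * DefRing.toMatRep P b σ * Qt) 1 0 = 0) ∧
    (∀ σ ∈ A.inertiaSubgroupIn ℚ, (Qti * DefRing.toMatRep P b σ * Qt) 1 1 = 1) ∧
    ∀ σ ∈ A.decompositionSubgroup ℚ, ∀ a : ℕ, (∀ μ : Ω, μ ^ p ^ 1 = 1 → σ μ = μ ^ a) →
      (Qti * DefRing.toMatRep P b σ * Qt) 0 0 - (a : T) *
        (Qti * DefRing.toMatRep P b σ * Qt) 1 1 ∈ Ideal.span {((p ^ 1 : ℕ) : T)} := by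
  obtain ⟨L', ⟨b', hb'⟩, h1, h2, h3⟩ := h.2 A hA
  have hmat : ∀ σ, b'.toMatrix b * DefRing.toMatRep P b σ * b.toMatrix b' =
      LinearMap.toMatrix b' b' (P.ρ σ) := fun σ =>
    basis_toMatrix_mul_linearMap_toMatrix_mul_basis_toMatrix b' b b' b (P.ρ σ)
  have hmem : ∀ v ∈ L', b'.repr v 1 = 0 := by
    intro v hv
    rw [hb'] at hv
    obtain ⟨t, rfl⟩ := Submodule.mem_span_singleton.1 hv
    simp
  have hb0 : b' 0 ∈ L' := by rw [hb']; exact Submodule.mem_span_singleton_self _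
  refine ⟨b.toMatrix b', b'.toMatrix b, b.toMatrix_mul_toMatrix_flip b', fun σ hσ => ?_,
    fun σ hσ => ?_, fun σ hσ a ha => ?_⟩
  · rw [hmat, LinearMap.toMatrix_apply]
    exact hmem _ (h1 σ hσ _ hb0)
  · rw [hmat, LinearMap.toMatrix_apply]
    have e1 := hmem _ (h2 σ hσ (b' 1))
    rw [map_sub, Finsupp.sub_apply, sub_eq_zero] at e1
    rw [e1]
    simp
  · obtain ⟨x, z, h4, h5, h6⟩ := h3 σ hσ
    have e1 : (LinearMap.toMatrix b' b' (P.ρ σ)) 0 0 = x := by
      rw [LinearMap.toMatrix_apply, h4 _ hb0]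
      simp
    have e2 : (LinearMap.toMatrix b' b' (P.ρ σ)) 1 1 = z := by
      rw [LinearMap.toMatrix_apply]
      have e3 := hmem _ (h5 (b' 1))
      rw [map_sub, Finsupp.sub_apply, map_smul, Finsupp.smul_apply, sub_eq_zero] at e3
      rw [e3]
      simp
    rw [hmat, e1, e2]
    exact h6 1 a ha

theorem map_mul_pi (X Y : Matrix (Fin 2) (Fin 2) T) :
    (X * Y).map π = X.map π * Y.map π := by
  exact map_mul (π.mapMatrix : Matrix (Fin 2) (Fin 2) T →+* M2 (ResidueField 𝒪)) X Y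

theorem map_one_pi : (1 : Matrix (Fin 2) (Fin 2) T).map π = 1 :=
  map_one (π.mapMatrix : Matrix (Fin 2) (Fin 2) T →+* M2 (ResidueField 𝒪))

include L in
theorem ordB_of {A : ValuationSubring Ω} {Qt Qti : Matrix (Fin 2) (Fin 2) T} (hQ : Qt * Qti = 1)
    (h1 : ∀ σ ∈ A.decompositionSubgroup ℚ, (Qti * DefRing.toMatRep P b σ * Qt) 1 0 = 0)
    (h2 : ∀ σ ∈ A.inertiaSubgroupIn ℚ, (Qti * DefRing.toMatRep P b σ * Qt) 1 1 = 1)
    (h3 : ∀ σ ∈ A.decompositionSubgroup ℚ, ∀ a : ℕ, (∀ μ : Ω, μ ^ p ^ 1 = 1 → σ μ = μ ^ a) →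
      (Qti * DefRing.toMatRep P b σ * Qt) 0 0 - (a : T) *
        (Qti * DefRing.toMatRep P b σ * Qt) 1 1 ∈ Ideal.span {((p ^ 1 : ℕ) : T)}) :
    OrdB ρ p A (Qt.map π) (Qti.map π) := by
  have hN : ∀ σ, Qti.map π * ρ σ * Qt.map π = (Qti * DefRing.toMatRep P b σ * Qt).map π := by
    intro σ
    rw [map_mul_pi, map_mul_pi, L.red]
  constructor
  · rw [← map_mul_pi, hQ, map_one_pi]
  · intro σ hσ
    rw [hN, Matrix.map_apply, h1 σ hσ, map_zero]
  · intro σ hσ
    rw [hN, Matrix.map_apply, h2 σ hσ, map_one]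
  · intro σ hσ
    rw [hN, Matrix.map_apply, Matrix.map_apply]
    have e1 := h3 σ hσ (cyc p σ).val fun μ hμ => apply_eq_pow_cyc p σ (by rwa [pow_one] at hμ)
    obtain ⟨t, ht⟩ := Ideal.mem_span_singleton'.1 e1
    have e2 := congrArg π ht
    have hp0 : π ((p ^ 1 : ℕ) : T) = 0 := by
      rw [pow_one, map_natCast, ← map_natCast (algebraMap (ZMod p) (ResidueField 𝒪)),
        CharP.cast_eq_zero, map_zero]
    rw [map_mul, hp0, mul_zero, map_sub, map_mul, map_natCast] at e2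
    have e3 : algebraMap (ZMod p) (ResidueField 𝒪) (cyc p σ) =
        (((cyc p σ).val : ℕ) : ResidueField 𝒪) := by
      rw [← map_natCast (algebraMap (ZMod p) (ResidueField 𝒪)), ZMod.natCast_zmod_val]
    rw [e3]
    exact (sub_eq_zero.1 e2.symm)

include L in
theorem resO (h : P.IsStrictOrdinaryAt p) : RO ρ p := by
  intro A hA
  obtain ⟨Qt, Qti, hQ, h1, h2, h3⟩ := exists_adapted h hA b
  exact ⟨_, _, ordB_of L hQ h1 h2 h3⟩

variable {I : Ideal T} {D : T → ResidueField 𝒪}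
  (hD : IsDer π (Set.range (algebraMap 𝒪 T)) I D) {c : 𝒢 → sl (ResidueField 𝒪)}
  (hc : ∀ σ, (c σ : M2 (ResidueField 𝒪)) = cD (DefRing.toMatRep P b) π D σ)

include hD in
theorem der_natCast (n : ℕ) : D (n : T) = 0 :=
  hD.zeroO _ ⟨(n : 𝒪), map_natCast _ n⟩

include hD in
theorem der_span {x : T} (hx : x ∈ Ideal.span {((p ^ 1 : ℕ) : T)}) : D x = 0 := by
  obtain ⟨t, rfl⟩ := Ideal.mem_span_singleton'.1 hx
  have hp0 : π ((p ^ 1 : ℕ) : T) = 0 := by
    rw [pow_one, map_natCast, ← map_natCast (algebraMap (ZMod p) (ResidueField 𝒪)),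
      CharP.cast_eq_zero, map_zero]
  rw [hD.mul, der_natCast hD, hp0, mul_zero, zero_mul, add_zero]

include L hD in
/-- derivatives of the diagonal entries vanish -/
theorem der_diag (hcyc : P.DetIsCyclotomic p) (h2k : (2 : ResidueField 𝒪) ≠ 0)
    {A : ValuationSubring Ω} {Qt Qti : Matrix (Fin 2) (Fin 2) T}
    (hQ : Qt * Qti = 1)
    (h1 : ∀ σ ∈ A.decompositionSubgroup ℚ, (Qti * DefRing.toMatRep P b σ * Qt) 1 0 = 0)
    (h3 : ∀ σ ∈ A.decompositionSubgroup ℚ, ∀ a : ℕ, (∀ μ : Ω, μ ^ p ^ 1 = 1 → σ μ = μ ^ a) →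
      (Qti * DefRing.toMatRep P b σ * Qt) 0 0 - (a : T) *
        (Qti * DefRing.toMatRep P b σ * Qt) 1 1 ∈ Ideal.span {((p ^ 1 : ℕ) : T)})
    {σ : 𝒢} (hσ : σ ∈ A.decompositionSubgroup ℚ) :
    D ((Qti * DefRing.toMatRep P b σ * Qt) 0 0) = 0 ∧
      D ((Qti * DefRing.toMatRep P b σ * Qt) 1 1) = 0 := by
  set N := Qti * DefRing.toMatRep P b σ * Qt with hN
  set a : ℕ := (cyc p σ).val with ha
  have hap : ∀ μ : Ω, μ ^ p ^ 1 = 1 → σ μ = μ ^ a := fun μ hμ =>
    apply_eq_pow_cyc p σ (by rwa [pow_one] at hμ)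
  have e1 : N 0 0 - (a : T) * N 1 1 ∈ Ideal.span {((p ^ 1 : ℕ) : T)} := h3 σ hσ a hap
  have e2 : D (N 0 0) = (a : ResidueField 𝒪) * D (N 1 1) := by
    have h4 := hD.add (N 0 0 - (a : T) * N 1 1) ((a : T) * N 1 1)
    rw [sub_add_cancel, der_span hD e1, zero_add, hD.mul, der_natCast hD, mul_zero, add_zero,
      map_natCast] at h4
    exact h4
  have e3 : π (N 0 0) = (a : ResidueField 𝒪) * π (N 1 1) := by
    obtain ⟨t, ht⟩ := Ideal.mem_span_singleton'.1 e1
    have e2 := congrArg π ht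
    have hp0 : π ((p ^ 1 : ℕ) : T) = 0 := by
      rw [pow_one, map_natCast, ← map_natCast (algebraMap (ZMod p) (ResidueField 𝒪)),
        CharP.cast_eq_zero, map_zero]
    rw [map_mul, hp0, mul_zero, map_sub, map_mul, map_natCast] at e2
    exact sub_eq_zero.1 e2.symm
  -- the determinant
  have e4 : N.det = LinearMap.det (P.ρ σ) := by
    have h5 : Qti * Qt = 1 := by rw [mul_eq_one_comm]; exact hQ
    rw [hN, Matrix.det_mul, Matrix.det_mul, mul_comm, ← mul_assoc, ← Matrix.det_mul, hQ,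
      Matrix.det_one, one_mul, DefRing.toMatRep_apply, LinearMap.det_toMatrix]
  have e5 : D N.det = 0 := by
    rw [e4]
    have h5 := hcyc.2 1 σ a hap
    have h6 := hD.add (LinearMap.det (P.ρ σ) - (a : T)) (a : T)
    rw [sub_add_cancel, der_span hD h5, der_natCast hD, add_zero] at h6
    exact h6
  have h10 : N 1 0 = 0 := h1 σ hσ
  rw [Matrix.det_fin_two, h10, mul_zero, sub_zero, hD.mul, e3, e2] at e5
  have hNd : π (N 0 0) * π (N 1 1) ≠ 0 := by
    rw [← map_mul]
    have h5 : N 0 0 * N 1 1 = N.det := by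
      rw [Matrix.det_fin_two, h10, mul_zero, sub_zero]
    rw [h5]
    have h6 : π N.det = (N.map π).det := by
      rw [Matrix.det_fin_two, Matrix.det_fin_two, map_sub, map_mul, map_mul]
      rfl
    rw [h6]
    intro h7
    have h8 : (N.map π) * ((Qti * DefRing.toMatRep P b σ⁻¹ * Qt).map π) = 1 := by
      rw [← map_mul_pi, ← map_one_pi (π := π)]
      congr 1
      rw [hN]
      calc Qti * DefRing.toMatRep P b σ * Qt * (Qti * DefRing.toMatRep P b σ⁻¹ * Qt)
          = Qti * DefRing.toMatRep P b σ * (Qt * Qti) * DefRing.toMatRep P b σ⁻¹ * Qt := by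
            simp only [mul_assoc]
        _ = Qti * (DefRing.toMatRep P b σ * DefRing.toMatRep P b σ⁻¹) * Qt := by
            rw [hQ, mul_one]; simp only [mul_assoc]
        _ = 1 := by
            rw [← map_mul, mul_inv_cancel, map_one, mul_one, mul_eq_one_comm]
            exact hQ
    have h9 := congrArg Matrix.det h8
    rw [Matrix.det_mul, h7, zero_mul, Matrix.det_one] at h9
    exact zero_ne_one h9
  rw [e3] at hNd
  have h11 : D (N 1 1) = 0 := by
    have h12 : (2 * (a : ResidueField 𝒪) * π (N 1 1)) * D (N 1 1) = 0 := by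
      linear_combination e5
    refine (mul_eq_zero.1 h12).resolve_left fun h13 => hNd ?_
    rw [mul_assoc, mul_eq_zero] at h13
    rw [h13.resolve_left h2k, zero_mul]
  exact ⟨by rw [e2, h11, mul_zero], h11⟩

include L hD hc in
theorem memO (h : P.IsStrictOrdinaryAt p) (hcyc : P.DetIsCyclotomic p) (hp2 : p ≠ 2)
    {A : ValuationSubring Ω} (hA : A.LiesOverPrime p) :
    (fun σ : A.decompositionSubgroup ℚ => c σ) ∈ ordL ρ p A := by
  have h2k : (2 : ResidueField 𝒪) ≠ 0 := by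
    intro h2
    have h3 : (2 : ZMod p) = 0 := by
      apply (algebraMap (ZMod p) (ResidueField 𝒪)).injective
      rw [map_ofNat, h2, map_zero]
    have : ((2 : ℕ) : ZMod p) = 0 := by exact_mod_cast h3
    rw [ZMod.natCast_eq_zero_iff, Nat.prime_dvd_prime_iff_eq hp.out Nat.prime_two] at this
    exact hp2 this
  obtain ⟨Qt, Qti, hQ, h1, h2, h3⟩ := exists_adapted h hA b
  have hB := ordB_of L hQ h1 h2 h3
  refine ⟨Z1_of_lift L hD hc A, fun Q' Qi' hB' => ?_⟩
  have hQ' : Qti * Qt = 1 := by rw [mul_eq_one_comm]; exact hQ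
  -- derivatives of the change of basis
  set Q : M2 (ResidueField 𝒪) := Qt.map π with hQd
  set Qi : M2 (ResidueField 𝒪) := Qti.map π with hQid
  set Y : M2 (ResidueField 𝒪) := Qt.map D * Qi with hY
  have hDQ : Qti.map D = - (Qi * Y) := by
    have e1 : (Qti * Qt).map D = 0 := by
      rw [hQ']
      ext i j
      rw [Matrix.map_apply, Matrix.one_apply, Matrix.zero_apply]
      split_ifs
      · exact hD.one
      · exact hD.zero
    rw [hD.map_mul_matrix] at e1
    have e2 : Qti.map D * Q = - (Qi * Qt.map D) := by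
      rw [eq_neg_iff_add_eq_zero, add_comm]; exact e1
    have e3 : Qti.map D = Qti.map D * Q * Qi := by rw [mul_assoc, hB.inv, mul_one]
    rw [e3, e2, hY, neg_mul, mul_assoc]
  set X : M2 (ResidueField 𝒪) := (Y.trace / 2) • (1 : M2 (ResidueField 𝒪)) - Y with hX
  have htr : X.trace = 0 := by
    rw [hX, Matrix.trace_sub, Matrix.trace_smul, Matrix.trace_one, Fintype.card_fin]
    simp only [smul_eq_mul, Nat.cast_ofNat]
    field_simp
    ring
  have key : ∀ σ : A.decompositionSubgroup ℚ,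
      Up Q Qi ((c σ : M2 (ResidueField 𝒪)) - (ρ (σ : 𝒢) * X * ρ (σ : 𝒢)⁻¹ - X)) := by
    intro σ
    set M := DefRing.toMatRep P b (σ : 𝒢) with hM
    set N := Qti * M * Qt with hN
    have hMN : M = Qt * N * Qti := by
      rw [hN]
      calc M = (Qt * Qti) * M * (Qt * Qti) := by rw [hQ, one_mul, mul_one]
        _ = _ := by simp only [mul_assoc]
    have hρ : ρ (σ : 𝒢) = Q * N.map π * Qi := by
      rw [← L.red, ← hM, hMN, map_mul_pi, map_mul_pi]
    have hρi : ρ (σ : 𝒢) * ρ (σ : 𝒢)⁻¹ = 1 := rho_mul_inv _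
    have hiq : Qi * Q = 1 := hB.inv'
    have hcσ : (c σ : M2 (ResidueField 𝒪)) = Q * N.map D * Qi * ρ (σ : 𝒢)⁻¹ +
        (Y - ρ (σ : 𝒢) * Y * ρ (σ : 𝒢)⁻¹) := by
      rw [hc, cD, redR_lift L, ← hM]
      have e1 : M.map D = Q * N.map D * Qi + Y * ρ (σ : 𝒢) - ρ (σ : 𝒢) * Y := by
        conv_lhs => rw [hMN]
        rw [hD.map_mul_matrix, hD.map_mul_matrix, map_mul_pi, hDQ]
        have e2 : Qt.map D * N.map π * Qi = Y * ρ (σ : 𝒢) := by
          rw [hY, hρ]
          calc Qt.map D * N.map π * Qi = Qt.map D * (Qi * Q) * N.map π * Qi := by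
                rw [hiq, mul_one]
            _ = _ := by simp only [mul_assoc]
        have e3 : Q * N.map π * (Qi * Y) = ρ (σ : 𝒢) * Y := by
          rw [hρ]; simp only [mul_assoc]
        rw [add_mul, e2, mul_neg, e3]
        abel
      rw [e1, sub_mul, add_mul, mul_assoc Y, hρi, mul_one]
      abel
    have e4 : (c σ : M2 (ResidueField 𝒪)) - (ρ (σ : 𝒢) * X * ρ (σ : 𝒢)⁻¹ - X) =
        Q * N.map D * Qi * ρ (σ : 𝒢)⁻¹ := by
      rw [hcσ, hX, mul_sub, sub_mul, mul_smul_comm, mul_one, smul_mul_assoc, hρi]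
      abel
    rw [e4]
    obtain ⟨d0, d1⟩ := der_diag L hD hcyc h2k hQ h1 h3 σ.2
    have e5 : Qi * (Q * N.map D * Qi * ρ (σ : 𝒢)⁻¹) * Q =
        N.map D * (Qi * ρ (σ : 𝒢)⁻¹ * Q) := by
      calc Qi * (Q * N.map D * Qi * ρ (σ : 𝒢)⁻¹) * Q =
            (Qi * Q) * N.map D * (Qi * ρ (σ : 𝒢)⁻¹ * Q) := by simp only [mul_assoc]
        _ = _ := by rw [hiq, one_mul]
    have f10 : (N.map D) 1 0 = 0 := by
      rw [Matrix.map_apply, hN, h1 _ σ.2]
      exact hD.zero
    have f00 : (N.map D) 0 0 = 0 := d0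
    have f11 : (N.map D) 1 1 = 0 := d1
    have g10 : (Qi * ρ (σ : 𝒢)⁻¹ * Q) 1 0 = 0 := hB.low _ (inv_mem σ.2)
    constructor
    · rw [e5, mul2, f10, f11]; ring
    · rw [e5, mul2 (N.map D), f00, g10]; ring
  refine ⟨⟨X, mem_sl.2 htr⟩, fun σ => ?_⟩
  refine (key σ).change ?_ hB.inv (hB.uniq hp2 hA hB') (hB'.uniq hp2 hA hB)
  rw [Matrix.trace_sub, Matrix.trace_sub, sl_trace]
  rw [Matrix.trace_mul_comm, ← mul_assoc, rho_inv_mul, one_mul, sub_self, sub_zero]

end mem

end Fermat.Agent.LC
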