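import Fermat.Agent.TW.Tame

/-!
# Tame inertia is cyclic: the version for normal subgroups of inertia
-/

set_option autoImplicit false
set_option linter.unusedSectionVars false
set_option linter.style.haveILetI false

noncomputable section

namespace Fermat.Agent.LC

open Fermat.Agent.Places Fermat.Agent.RedMod Fermat.Agent.FlatRam Fermat.Agent.Flat
  Fermat.Agent.GalRep Fermat.Agent.TW

local notation "Ω" => AlgebraicClosure ℚ

variable {A : ValuationSubring (AlgebraicClosure ℚ)} {v : ℕ} [hv : Fact v.Prime]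
  {K : Subgroup GQ} (hKI : K ≤ A.inertiaSubgroupIn ℚ)
  (hKn : ∀ σ ∈ A.inertiaSubgroupIn ℚ, ∀ τ ∈ K, σ⁻¹ * τ * σ ∈ K)
  (hop : ∃ L : IntermediateField ℚ Ω, FiniteDimensional ℚ L ∧
    ∀ σ ∈ A.inertiaSubgroupIn ℚ, (∀ x ∈ L, σ x = x) → σ ∈ K)
  {p : ℕ} (hp : p.Prime) (hpv : p ≠ v)
  (hpp : ∀ σ ∈ A.inertiaSubgroupIn ℚ, ∃ k : ℕ, σ ^ p ^ k ∈ K)

include hKI hop in
theorem isClosed_K : IsClosed (K : Set GQ) := by
  obtain ⟨L, hL, hf⟩ := hop
  rw [← isOpen_compl_iff, isOpen_iff_mem_nhds]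
  intro σ hσ
  by_cases hσI : σ ∈ A.inertiaSubgroupIn ℚ
  · have h1 : (fun τ : GQ => σ⁻¹ * τ) ⁻¹' (L.fixingSubgroup : Set GQ) ∈ nhds σ := by
      refine (L.fixingSubgroup_isOpen.preimage (continuous_const_mul σ⁻¹)).mem_nhds ?_
      simp
    refine Filter.mem_of_superset h1 fun τ hτ hτK => ?_
    rw [Set.mem_preimage, SetLike.mem_coe, IntermediateField.mem_fixingSubgroup_iff] at hτ
    have h2 := hf _ (mul_mem (inv_mem hσI) (hKI hτK)) hτ
    apply hσ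
    have h3 : σ = τ * (σ⁻¹ * τ)⁻¹ := by group
    rw [h3]
    exact mul_mem hτK (inv_mem h2)
  · refine Filter.mem_of_superset ((isClosed_inertia A).isOpen_compl.mem_nhds hσI) ?_
    intro τ hτ hτK
    exact hτ (hKI hτK)

include hKI hop in
theorem mem_K_of_fix {σ : GQ} (h : ∀ x : Ω, (∀ τ ∈ K, τ x = x) → σ x = x) : σ ∈ K := by
  have h2 := InfiniteGalois.fixingSubgroup_fixedField
    (⟨K, isClosed_K hKI hop⟩ : ClosedSubgroup GQ)
  have h3 : (IntermediateField.fixedField K).fixingSubgroup = K := h2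
  rw [← h3, IntermediateField.mem_fixingSubgroup_iff]
  intro x hx
  exact h x fun τ hτ => (IntermediateField.mem_fixedField_iff _ _).1 hx τ hτ

include hKn in
theorem fix_of_conjK {σ : GQ} (hσ : σ ∈ A.inertiaSubgroupIn ℚ) {x : Ω}
    (hx : ∀ τ ∈ K, τ x = x) (τ : GQ) (hτ : τ ∈ K) : τ (σ x) = σ x := by
  have h1 := hx _ (hKn σ hσ τ hτ)
  have h2 : σ ((σ⁻¹ * τ * σ) x) = τ (σ x) := by
    change (σ * (σ⁻¹ * τ * σ)) x = (τ * σ) x
    congr 1
    group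
  rw [← h2, h1]

include hKI hKn hop hp hpv hpp in
/-- elements with trivial tame characters are in `K` -/
theorem mem_K_of_th (hA : A.LiesOverPrime v) {σ : GQ} (hσ : σ ∈ A.inertiaSubgroupIn ℚ)
    (h : ∀ x : Ω, x ≠ 0 → (∀ τ ∈ K, τ x = x) → th A σ x = 1) : σ ∈ K := by
  obtain ⟨k, hk⟩ := hpp σ hσ
  refine mem_K_of_fix hKI hop fun x hx => ?_
  by_contra hne
  have hy0 : σ x - x ≠ 0 := sub_ne_zero.2 hne
  have hy : ∀ τ ∈ K, τ (σ x - x) = σ x - x := by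
    intro τ hτ
    rw [map_sub, fix_of_conjK hKn hσ hx τ hτ, hx τ hτ]
  have hth := h _ hy0 hy
  have h1 := (sum_ne_zero hA (Finset.range (p ^ k)) (fun i => σ ^ i) hy0 (fun i _ =>
    ⟨pow_mem hσ i, by rw [th_pow_left hA hy0 hσ, hth, one_pow]⟩) (by
      rw [Finset.card_range]
      intro hd
      exact hpv ((Nat.prime_dvd_prime_iff_eq hv.out hp).1 (hv.out.dvd_of_dvd_pow hd)).symm)).1
  apply h1
  have h2 : ∀ n : ℕ, ∑ i ∈ Finset.range n, (σ ^ i) (σ x - x) = (σ ^ n) x - x := by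
    intro n
    induction n with
    | zero => simp
    | succ n ih =>
      rw [Finset.sum_range_succ, ih, map_sub, pow_succ]
      change (σ ^ n) x - x + ((σ ^ n) (σ x) - (σ ^ n) x) = (σ ^ n) (σ x) - x
      ring
  rw [h2, hx (σ ^ p ^ k) hk, sub_self]

include hop in
/-- `K` has finite index in inertia -/
theorem finite_quot : Finite (A.inertiaSubgroupIn ℚ ⧸ K.subgroupOf (A.inertiaSubgroupIn ℚ)) := by
  obtain ⟨L, hL, hf⟩ := hop
  haveI := hL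
  haveI h1 : L.fixingSubgroup.FiniteIndex := ⟨by
    rw [← IntermediateField.finrank_eq_fixingSubgroup_index]
    exact Module.finrank_pos.ne'⟩
  haveI h2 : (L.fixingSubgroup.subgroupOf (A.inertiaSubgroupIn ℚ)).FiniteIndex := inferInstance
  haveI h3 : (K.subgroupOf (A.inertiaSubgroupIn ℚ)).FiniteIndex := by
    refine Subgroup.finiteIndex_of_le
      (H := L.fixingSubgroup.subgroupOf (A.inertiaSubgroupIn ℚ)) fun τ hτ => ?_
    rw [Subgroup.mem_subgroupOf, IntermediateField.mem_fixingSubgroup_iff] at hτ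
    exact hf τ τ.2 hτ
  exact Subgroup.finite_quotient_of_finiteIndex

include hKn hop hp hpv hpp in
/-- integrality of valuations -/
theorem w_int_of_tameK (hA : A.LiesOverPrime v) {x : Ω} (hx0 : x ≠ 0)
    (hx : ∀ τ ∈ K, τ x = x) (hth : ∀ σ ∈ A.inertiaSubgroupIn ℚ, th A σ x = 1) :
    ∃ n : ℤ, (rval A v hA).w x = n := by
  classical
  haveI hN : (K.subgroupOf (A.inertiaSubgroupIn ℚ)).Normal := ⟨fun n hn g => by
    rw [Subgroup.mem_subgroupOf] at hn ⊢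
    have := hKn (g⁻¹ : A.inertiaSubgroupIn ℚ) (inv_mem g.2) n hn
    have h2 : ((g * n * g⁻¹ : A.inertiaSubgroupIn ℚ) : GQ) =
      ((g⁻¹ : A.inertiaSubgroupIn ℚ) : GQ)⁻¹ * n * ((g⁻¹ : A.inertiaSubgroupIn ℚ) : GQ) := by
      simp
    rw [h2]
    exact this⟩
  set Q := A.inertiaSubgroupIn ℚ ⧸ K.subgroupOf (A.inertiaSubgroupIn ℚ) with hQ
  haveI hfin : Finite Q := finite_quot hop
  haveI := Fintype.ofFinite Q
  have hpg : IsPGroup p Q := by
    intro c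
    obtain ⟨σ, rfl⟩ := QuotientGroup.mk_surjective c
    obtain ⟨k, hk⟩ := hpp σ σ.2
    refine ⟨k, ?_⟩
    rw [← QuotientGroup.mk_pow, QuotientGroup.eq_one_iff, Subgroup.mem_subgroupOf]
    exact hk
  have hcard : ¬ v ∣ Fintype.card Q := by
    haveI : Fact p.Prime := ⟨hp⟩
    obtain ⟨n, hn⟩ := IsPGroup.iff_card.1 hpg
    rw [← Nat.card_eq_fintype_card, hn]
    intro hd
    exact hpv ((Nat.prime_dvd_prime_iff_eq hv.out hp).1 (hv.out.dvd_of_dvd_pow hd)).symm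
  let r : Q → A.inertiaSubgroupIn ℚ := Quotient.out
  have hr : ∀ c : Q, (QuotientGroup.mk (r c) : Q) = c := fun c => QuotientGroup.out_eq' c
  obtain ⟨h1, h2⟩ := sum_ne_zero hA (Finset.univ : Finset Q) (fun c => (r c : GQ)) hx0
    (fun c _ => ⟨(r c).2, hth _ (r c).2⟩) (by rwa [Finset.card_univ])
  rw [← h2]
  have hK : (∑ c : Q, (r c : GQ) x) ∈ K0 A := by
    rw [K0, IntermediateField.mem_fixedField_iff]
    intro σ hσ
    rw [map_sum]
    refine Fintype.sum_equiv (Equiv.mulLeft (QuotientGroup.mk ⟨σ, hσ⟩ : Q)) _ _ fun c => ?_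
    rw [Equiv.coe_mulLeft]
    set c' : Q := (QuotientGroup.mk ⟨σ, hσ⟩ : Q) * c with hc'
    have h3 : ((r c' : GQ))⁻¹ * (σ * (r c : GQ)) ∈ K := by
      have e1 : (QuotientGroup.mk (r c') : Q) = QuotientGroup.mk (⟨σ, hσ⟩ * r c) := by
        rw [hr, hc', QuotientGroup.mk_mul, hr]
      rw [QuotientGroup.eq, Subgroup.mem_subgroupOf] at e1
      exact e1
    have h4 := hx _ h3
    have h5 : (r c' : GQ) ((((r c' : GQ))⁻¹ * (σ * (r c : GQ))) x) = σ ((r c : GQ) x) := by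
      change ((r c' : GQ) * (((r c' : GQ))⁻¹ * (σ * (r c : GQ)))) x = (σ * (r c : GQ)) x
      rw [mul_inv_cancel_left]
    rw [← h5, h4]
  exact (rval A v hA).w_int (⟨_, hK⟩ : K0 A) (fun h => h1 (congrArg Subtype.val h))

include hKI hKn hop hp hpv hpp in
/-- **Tame inertia is cyclic.** -/
theorem exists_genK (hA : A.LiesOverPrime v) :
    ∃ σ₀ ∈ A.inertiaSubgroupIn ℚ, ∀ σ ∈ A.inertiaSubgroupIn ℚ, ∃ n : ℕ,
      σ * (σ₀ ^ n)⁻¹ ∈ K := by
  classical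
  -- a uniform exponent
  haveI hN : (K.subgroupOf (A.inertiaSubgroupIn ℚ)).Normal := ⟨fun n hn g => by
    rw [Subgroup.mem_subgroupOf] at hn ⊢
    have := hKn (g⁻¹ : A.inertiaSubgroupIn ℚ) (inv_mem g.2) n hn
    have h2 : ((g * n * g⁻¹ : A.inertiaSubgroupIn ℚ) : GQ) =
      ((g⁻¹ : A.inertiaSubgroupIn ℚ) : GQ)⁻¹ * n * ((g⁻¹ : A.inertiaSubgroupIn ℚ) : GQ) := by
      simp
    rw [h2]
    exact this⟩
  obtain ⟨m, hm0, hK⟩ : ∃ m : ℕ, m ≠ 0 ∧ ∀ σ ∈ A.inertiaSubgroupIn ℚ, σ ^ m ∈ K := by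
    haveI := finite_quot hop
    refine ⟨Nat.card (A.inertiaSubgroupIn ℚ ⧸ K.subgroupOf (A.inertiaSubgroupIn ℚ)),
      Nat.card_pos.ne', fun σ hσ => ?_⟩
    have h1 : (QuotientGroup.mk (⟨σ, hσ⟩ : A.inertiaSubgroupIn ℚ) :
      A.inertiaSubgroupIn ℚ ⧸ K.subgroupOf (A.inertiaSubgroupIn ℚ)) ^
        Nat.card (A.inertiaSubgroupIn ℚ ⧸ K.subgroupOf (A.inertiaSubgroupIn ℚ)) = 1 :=
      pow_card_eq_one'
    rw [← QuotientGroup.mk_pow, QuotientGroup.eq_one_iff, Subgroup.mem_subgroupOf] at h1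
    exact h1
  let E : Set Ω := {x | ∀ τ ∈ K, τ x = x}
  -- the value group
  have hval : ∀ x ∈ E, x ≠ 0 → ∃ n : ℤ, (m : ℚ) * (rval A v hA).w x = n := by
    intro x hx hx0
    rw [← RVal.w_pow hx0]
    refine w_int_of_tameK hKn hop hp hpv hpp hA (pow_ne_zero m hx0) (fun τ hτ => by
      rw [map_pow, hx τ hτ]) (fun σ hσ => ?_)
    rw [th_pow hA (pres_of_mem hσ) hx0, ← th_pow_left hA hx0 hσ, th,
      hx (σ ^ m) (hK σ hσ), div_self hx0, rs_one]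
  let S : AddSubgroup ℤ :=
    { carrier := {k | ∃ x ∈ E, x ≠ 0 ∧ (m : ℚ) * (rval A v hA).w x = k}
      add_mem' := by
        rintro a b ⟨x, hx, hx0, ha⟩ ⟨y, hy, hy0, hb⟩
        refine ⟨x * y, fun τ hτ => by rw [map_mul, hx τ hτ, hy τ hτ], mul_ne_zero hx0 hy0, ?_⟩
        rw [RVal.w_mul hx0 hy0, mul_add, ha, hb]
        push_cast; ring
      zero_mem' := ⟨1, fun τ _ => map_one τ, one_ne_zero, by rw [RVal.w_one]; simp⟩
      neg_mem' := by
        rintro a ⟨x, hx, hx0, ha⟩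
        refine ⟨x⁻¹, fun τ hτ => by rw [map_inv₀, hx τ hτ], inv_ne_zero hx0, ?_⟩
        rw [RVal.w_inv hx0, mul_neg, ha]
        push_cast; ring }
  obtain ⟨d, hd⟩ := Int.subgroup_cyclic S
  have hdS : d ∈ S := by rw [hd]; exact AddSubgroup.subset_closure rfl
  obtain ⟨x₀, hx₀, hx₀0, hwx₀⟩ := hdS
  have hdet : ∀ σ ∈ A.inertiaSubgroupIn ℚ, th A σ x₀ = 1 → σ ∈ K := by
    intro σ hσ hth
    refine mem_K_of_th hKI hKn hop hp hpv hpp hA hσ fun x hx0 hx => ?_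
    obtain ⟨n, hn⟩ := hval x hx hx0
    have hnS : n ∈ S := ⟨x, hx, hx0, hn⟩
    rw [hd, AddSubgroup.mem_closure_singleton] at hnS
    obtain ⟨j, hj⟩ := hnS
    have hw : (rval A v hA).w x = (rval A v hA).w (x₀ ^ j) := by
      rw [RVal.w_zpow hx₀0]
      have hmQ : (m : ℚ) ≠ 0 := Nat.cast_ne_zero.2 hm0
      apply mul_left_cancel₀ hmQ
      rw [hn, ← hj, mul_left_comm, hwx₀]
      push_cast
      rw [zsmul_eq_mul]
      push_cast
      ring
    rw [th_eq_of_w hA hσ hx0 (zpow_ne_zero j hx₀0) hw]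
    have hzp : ∀ j : ℕ, th A σ (x₀ ^ j) = 1 := fun j => by
      rw [th_pow hA (pres_of_mem hσ) hx₀0, hth, one_pow]
    have hinv : ∀ y : Ω, y ≠ 0 → th A σ y = 1 → th A σ y⁻¹ = 1 := by
      intro y hy hy1
      have := th_mul hA (pres_of_mem hσ) hy (inv_ne_zero hy)
      rw [mul_inv_cancel₀ hy, th_one, hy1, one_mul] at this
      exact this.symm
    obtain ⟨j, rfl | rfl⟩ := j.eq_nat_or_neg
    · rw [zpow_natCast]; exact hzp j
    · rw [zpow_neg, zpow_natCast]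
      exact hinv _ (pow_ne_zero _ hx₀0) (hzp j)
  have hfin : {t | ∃ σ ∈ A.inertiaSubgroupIn ℚ, th A σ x₀ = t}.Finite := by
    have hP : (Polynomial.X ^ m - 1 : Polynomial (kk A)) ≠ 0 :=
      Polynomial.X_pow_sub_C_ne_zero (Nat.pos_of_ne_zero hm0) 1
    refine Set.Finite.subset
      ((Polynomial.X ^ m - 1 : Polynomial (kk A)).roots.toFinset.finite_toSet) ?_
    rintro _ ⟨σ, hσ, rfl⟩
    rw [Finset.mem_coe, Multiset.mem_toFinset, Polynomial.mem_roots hP]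
    have : th A σ x₀ ^ m = 1 := by
      rw [← th_pow_left hA hx₀0 hσ, th, hx₀ (σ ^ m) (hK σ hσ), div_self hx₀0, rs_one]
    simp [this]
  obtain ⟨σ₀, hσ₀, hgen, -, -⟩ := exists_gen hA hx₀0 hfin
  refine ⟨σ₀, hσ₀, fun σ hσ => ?_⟩
  obtain ⟨n, hn⟩ := hgen σ hσ
  refine ⟨n, ?_⟩
  have hmem : σ * (σ₀ ^ n)⁻¹ ∈ A.inertiaSubgroupIn ℚ := mul_mem hσ (inv_mem (pow_mem hσ₀ n))
  have h1 : th A (σ * (σ₀ ^ n)⁻¹) x₀ = 1 := by
    have h2 : th A ((σ * (σ₀ ^ n)⁻¹) * σ₀ ^ n) x₀ = _ :=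
      th_comp hA hmem (pres_of_mem (pow_mem hσ₀ n)) hx₀0
    rw [inv_mul_cancel_right, hn, ← th_pow_left hA hx₀0 hσ₀] at h2
    have h3 : th A (σ₀ ^ n) x₀ ≠ 0 := th_ne_zero hA hx₀0 (pow_mem hσ₀ n)
    exact (mul_eq_right₀ h3).1 h2.symm
  exact hdet _ hmem h1

end Fermat.Agent.LC
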